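import Fermat.Agent.PoitouTate.Base
import Fermat.Agent.Lowering.P1.Brauer.Hasse.Target
import Fermat.Agent.Lowering.P1.Brauer.Global
import Fermat.Agent.Lowering.P1.Brauer.Conj
import Fermat.Agent.Lowering.P1.Brauer.Reciprocity
import Fermat.Agent.Lowering.P1.Local.Target

/-!
# Properties of cochains, cup products and the local invariant
-/

set_option autoImplicit false
set_option linter.style.haveILetI false
set_option linter.unusedSectionVars false
set_option maxHeartbeats 1000000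

noncomputable section

open scoped Pointwise

namespace FLTAgent.PoitouTate

open FLTAgent.Lowering.P1 FLTAgent.Lowering.P1.Brauer

local notation "LL" => AlgebraicClosure ℚ
local notation "GG" => (AlgebraicClosure ℚ ≃ₐ[ℚ] AlgebraicClosure ℚ)
local notation "Dec" => ValuationSubring.decompositionSubgroup ℚ

variable {p : ℕ} [Fact p.Prime]

theorem om_mul (g h : GG) : om p (g * h) = om p g * om p h := by
  simp [om, map_mul]

theorem om_one : om p (1 : GG) = 1 := by simp [om]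

theorem om_ne_zero (g : GG) : om p g ≠ 0 := Units.ne_zero _

theorem apply_zeta (g : GG) : g (zeta p) = zeta p ^ (om p g).val := by
  haveI : NeZero p := ⟨(Fact.out : p.Prime).ne_zero⟩
  have h := modularCyclotomicCharacter.spec (L := LL)
    (hn := ExtCitation.card_rootsOfUnity_eq_self p)
    (g : LL ≃+* LL) (zeta_spec p).toRootsOfUnity.2
  simp only [IsPrimitiveRoot.val_toRootsOfUnity_coe] at h
  exact h

theorem apply_zeta_val (g : GG) (x : ZMod p) :
    g (zeta p ^ x.val) = zeta p ^ (om p g * x).val := by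
  rw [map_pow, apply_zeta, ← pow_mul, ZMod.val_mul]
  exact pow_eq_pow_mod _ (zeta_spec p).pow_eq_one

theorem om_eq_one_of_fix {g : GG} (h : g (zeta p) = zeta p) : om p g = 1 := by
  rw [apply_zeta] at h
  have h1 := (zeta_spec p).pow_inj (ZMod.val_lt _) (Fact.out : p.Prime).one_lt (by rw [h, pow_one])
  rw [← ZMod.natCast_zmod_val (om p g), h1, Nat.cast_one]

theorem omRep_apply (g : GG) (x : ZMod p) : omRep p g x = om p g * x := by
  simp [omRep]

variable (p) in
/-- The field of the roots of unity. -/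
def zetaField : IntermediateField ℚ LL := IntermediateField.adjoin ℚ {zeta p}

instance zetaField_finite : FiniteDimensional ℚ (zetaField p) :=
  IntermediateField.adjoin.finiteDimensional (integral_coe _)

theorem omRep_of_fix {g : GG} (h : g ∈ (zetaField p).fixingSubgroup) :
    omRep p g = LinearMap.id := by
  refine LinearMap.ext fun x => ?_
  rw [omRep_apply, om_eq_one_of_fix ((IntermediateField.mem_fixingSubgroup_iff _ _).1 h _
    (IntermediateField.mem_adjoin_simple_self ℚ _)), one_mul, LinearMap.id_apply]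

/-! ### Cochains -/

variable {A : Type} [AddCommGroup A] [Module (ZMod p) A] (ρ : Representation (ZMod p) GG A)
  {G G' : Type} [Group G] [Group G'] (ι : G →* GG)

theorem rho_mul (g h : GG) (a : A) : ρ (g * h) a = ρ g (ρ h a) := by
  rw [map_mul]; rfl

theorem rho_one (a : A) : ρ 1 a = a := by rw [map_one]; rfl

/-- Trivial on an open subgroup. -/
def Smooth : Prop :=
  ∃ F : IntermediateField ℚ LL, FiniteDimensional ℚ F ∧ ∀ g ∈ F.fixingSubgroup, ρ g = LinearMap.id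

theorem smooth_om : Smooth (omRep p) := ⟨zetaField p, inferInstance, fun _ h => omRep_of_fix h⟩

variable {ρ ι}

theorem d0_mem_Z1 (hρ : Smooth ρ) (a : A) : d0 ρ ι a ∈ Z1 ρ ι := by
  obtain ⟨F, hF, hF'⟩ := hρ
  refine ⟨⟨F, hF, fun g s hs => ?_⟩, fun g h => ?_⟩
  · rw [d0_apply, d0_apply, map_mul, rho_mul, hF' _ hs, LinearMap.id_apply]
  · rw [d0_apply, d0_apply, d0_apply, map_mul, rho_mul, map_sub]
    abel

theorem B1_le_Z1 (hρ : Smooth ρ) : B1 ρ ι ≤ Z1 ρ ι := by
  rintro _ ⟨a, rfl⟩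
  exact d0_mem_Z1 hρ a

theorem levC₂_d1 (hρ : Smooth ρ) {u : G → A} (hu : LevC ι u) : LevC₂ ι (d1 ρ ι u) := by
  obtain ⟨E, hE, hu⟩ := hu
  obtain ⟨F, hF, hF'⟩ := hρ
  obtain ⟨N, hN, hNn, hle⟩ := exists_normal_le (E ⊔ F)
  refine ⟨N, hN, fun g h s t hs ht => ?_⟩
  have hs' := IntermediateField.fixingSubgroup_antitone (le_sup_left.trans hle) hs
  have ht' := IntermediateField.fixingSubgroup_antitone (le_sup_left.trans hle) ht
  have h3 : u (g * s * (h * t)) = u (g * h) := by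
    rw [show g * s * (h * t) = g * h * (h⁻¹ * s * h * t) by group]
    refine hu _ _ (IntermediateField.fixingSubgroup_antitone (le_sup_left.trans hle) ?_)
    rw [map_mul, map_mul, map_mul, map_inv]
    exact mul_mem (fix_conj hs (ι h)) ht
  rw [d1_apply, d1_apply, hu g s hs', hu h t ht', h3, map_mul, rho_mul,
    hF' _ (IntermediateField.fixingSubgroup_antitone (le_sup_right.trans hle) hs),
    LinearMap.id_apply]

theorem d1_cocycle (u : G → A) (g h j : G) :
    ρ (ι g) (d1 ρ ι u h j) - d1 ρ ι u (g * h) j + d1 ρ ι u g (h * j) - d1 ρ ι u g h = 0 := by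
  simp only [d1_apply, map_add, map_sub, map_mul, Module.End.mul_apply, mul_assoc]
  abel

theorem d1_mem_Z2 (hρ : Smooth ρ) {u : G → A} (hu : u ∈ C1 ι (p := p)) : d1 ρ ι u ∈ Z2 ρ ι :=
  ⟨levC₂_d1 hρ hu, d1_cocycle u⟩

theorem B2_le_Z2 (hρ : Smooth ρ) : B2 ρ ι ≤ Z2 ρ ι := by
  rintro _ ⟨u, hu, rfl⟩
  exact d1_mem_Z2 hρ hu

theorem levS_levC {α : Type} {S : Finset Nat.Primes} {c : G → α} (h : LevS ι S c) : LevC ι c :=
  let ⟨F, hF, hc⟩ := h; ⟨F, hF.1, hc⟩

theorem C1S_le_C1 (S : Finset Nat.Primes) :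
    (C1S ι S : Submodule (ZMod p) (G → A)) ≤ C1 ι := fun _ h => levS_levC h

theorem B2S_le_B2 (S : Finset Nat.Primes) : B2S ρ ι S ≤ B2 ρ ι :=
  Submodule.map_mono (C1S_le_C1 S)

theorem res1_mem_Z1 (f : G' →* G) {c : G → A} (hc : c ∈ Z1 ρ ι) :
    res1 (p := p) f c ∈ Z1 ρ (ι.comp f) := by
  obtain ⟨⟨F, hF, hl⟩, hc⟩ := hc
  refine ⟨⟨F, hF, fun g s hs => ?_⟩, fun g h => ?_⟩
  · rw [res1_apply, res1_apply, map_mul]; exact hl _ _ hs
  · rw [res1_apply, res1_apply, res1_apply, map_mul]; exact hc _ _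

theorem res2_mem_Z2 (f : G' →* G) {c : G → G → A} (hc : c ∈ Z2 ρ ι) :
    res2 (p := p) f c ∈ Z2 ρ (ι.comp f) := by
  obtain ⟨⟨F, hF, hl⟩, hc⟩ := hc
  refine ⟨⟨F, hF, fun g h s t hs ht => ?_⟩, fun g h j => ?_⟩
  · rw [res2_apply, res2_apply, map_mul, map_mul]; exact hl _ _ _ _ hs ht
  · rw [res2_apply, res2_apply, res2_apply, res2_apply, map_mul, map_mul]; exact hc _ _ _

theorem res2_d1 (f : G' →* G) (u : G → A) :
    res2 (p := p) f (d1 ρ ι u) = d1 ρ (ι.comp f) (res1 (p := p) f u) := by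
  funext g h
  simp only [res2_apply, d1_apply, res1_apply, map_mul, MonoidHom.comp_apply]

theorem res1_d0 (f : G' →* G) (a : A) :
    res1 (p := p) f (d0 ρ ι a) = d0 ρ (ι.comp f) a := rfl

theorem res2_mem_B2 (f : G' →* G) {c : G → G → A} (hc : c ∈ B2 ρ ι) :
    res2 (p := p) f c ∈ B2 ρ (ι.comp f) := by
  obtain ⟨u, ⟨F, hF, hu⟩, rfl⟩ := hc
  refine ⟨res1 (p := p) f u, ⟨F, hF, fun g s hs => ?_⟩, (res2_d1 f u).symm⟩
  rw [res1_apply, res1_apply, map_mul]
  exact hu _ _ hs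

/-! ### Cup products -/

variable {A' : Type} [AddCommGroup A'] [Module (ZMod p) A'] {ρ' : Representation (ZMod p) GG A'}
  (P : DualPair ρ ρ')

/-- The pairing in the other order. -/
def DualPair.swap : DualPair ρ' ρ where
  e := P.e.flip
  equivariant g a b := P.equivariant g b a
  left := P.right
  right := P.left

theorem DualPair.swap_apply (a : A) (b : A') : P.swap.e b a = P.e a b := rfl

theorem cup_cocycle {a : G → A} (ha : ∀ g h, a (g * h) = a g + ρ (ι g) (a h)) {b : G → A'}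
    (hb : ∀ g h, b (g * h) = b g + ρ' (ι g) (b h)) (g h j : G) :
    omRep p (ι g) (cup ι P.e ρ' a b h j) - cup ι P.e ρ' a b (g * h) j +
      cup ι P.e ρ' a b g (h * j) - cup ι P.e ρ' a b g h = 0 := by
  simp only [cup, omRep_apply, ha g h, hb h j, map_mul, Module.End.mul_apply, map_add,
    LinearMap.add_apply, P.equivariant]
  abel

theorem cup_mem_Z2 (hρ' : Smooth ρ') {a : G → A} (ha : a ∈ Z1 ρ ι) {b : G → A'}
    (hb : b ∈ Z1 ρ' ι) : cup ι P.e ρ' a b ∈ Z2 (omRep p) ι := by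
  refine ⟨?_, cup_cocycle P ha.2 hb.2⟩
  obtain ⟨E, hE, hla⟩ := ha.1
  obtain ⟨E', hE', hlb⟩ := hb.1
  obtain ⟨F, hF, hF'⟩ := hρ'
  refine ⟨E ⊔ E' ⊔ F, inferInstance, fun g h s t hs ht => ?_⟩
  simp only [cup]
  rw [hla g s (IntermediateField.fixingSubgroup_antitone (le_sup_left.trans le_sup_left) hs),
    hlb h t (IntermediateField.fixingSubgroup_antitone (le_sup_right.trans le_sup_left) ht),
    map_mul, rho_mul, hF' _ (IntermediateField.fixingSubgroup_antitone le_sup_right hs),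
    LinearMap.id_apply]

theorem cup_mem_Z2S {S : Finset Nat.Primes} (hρ' : ∃ F : IntermediateField ℚ LL,
    F.IsUnramifiedOutside S ∧ ∀ g ∈ F.fixingSubgroup, ρ' g = LinearMap.id) {a : G → A}
    (ha : a ∈ Z1S ρ ι S) {b : G → A'} (hb : b ∈ Z1S ρ' ι S) :
    cup ι P.e ρ' a b ∈ Z2S (omRep p) ι S := by
  obtain ⟨F, hF, hF'⟩ := hρ'
  refine ⟨cup_mem_Z2 P ⟨F, hF.1, hF'⟩ ha.1 hb.1, ?_⟩
  obtain ⟨E, hE, hla⟩ := ha.2
  obtain ⟨E', hE', hlb⟩ := hb.2
  refine ⟨E ⊔ E' ⊔ F, (hE.sup hE').sup hF, fun g h s t hs ht => ?_⟩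
  simp only [cup]
  rw [hla g s (IntermediateField.fixingSubgroup_antitone (le_sup_left.trans le_sup_left) hs),
    hlb h t (IntermediateField.fixingSubgroup_antitone (le_sup_right.trans le_sup_left) ht),
    map_mul, rho_mul, hF' _ (IntermediateField.fixingSubgroup_antitone le_sup_right hs),
    LinearMap.id_apply]

theorem cup_d0_left (m : A) {b : G → A'} (hb : ∀ g h, b (g * h) = b g + ρ' (ι g) (b h)) :
    cup ι P.e ρ' (d0 ρ ι m) b = d1 (omRep p) ι fun g => P.e m (b g) := by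
  funext g h
  simp only [cup, d0_apply, d1_apply, omRep_apply, hb g h, map_sub, map_add, LinearMap.sub_apply,
    P.equivariant]
  abel

theorem cup_d0_right {a : G → A} (ha : ∀ g h, a (g * h) = a g + ρ (ι g) (a h)) (n : A') :
    cup ι P.e ρ' a (d0 ρ' ι n) = -d1 (omRep p) ι fun g => P.e (a g) (ρ' (ι g) n) := by
  funext g h
  simp only [cup, d0_apply, d1_apply, omRep_apply, Pi.neg_apply, ha g h, map_sub, map_add,
    LinearMap.add_apply, map_mul, Module.End.mul_apply, P.equivariant]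
  abel

theorem cup_mem_B2_left {a : G → A} (ha : a ∈ B1 ρ ι) {b : G → A'}
    (hb : b ∈ Z1 ρ' ι) : cup ι P.e ρ' a b ∈ B2 (omRep p) ι := by
  obtain ⟨m, rfl⟩ := ha
  refine ⟨fun g => P.e m (b g), ?_, (cup_d0_left P m hb.2).symm⟩
  obtain ⟨E, hE, hl⟩ := hb.1
  exact ⟨E, hE, fun g s hs => by dsimp only; rw [hl g s hs]⟩

theorem cup_mem_B2_right (hρ' : Smooth ρ') {a : G → A} (ha : a ∈ Z1 ρ ι) {b : G → A'}
    (hb : b ∈ B1 ρ' ι) : cup ι P.e ρ' a b ∈ B2 (omRep p) ι := by
  obtain ⟨n, rfl⟩ := hb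
  rw [cup_d0_right P ha.2 n]
  refine Submodule.neg_mem _ ⟨_, ?_, rfl⟩
  obtain ⟨E, hE, hl⟩ := ha.1
  obtain ⟨F, hF, hF'⟩ := hρ'
  refine ⟨E ⊔ F, inferInstance, fun g s hs => ?_⟩
  dsimp only
  rw [hl g s (IntermediateField.fixingSubgroup_antitone le_sup_left hs), map_mul, rho_mul,
    hF' _ (IntermediateField.fixingSubgroup_antitone le_sup_right hs), LinearMap.id_apply]

theorem cup_add_swap {a : G → A} (ha : a ∈ Z1 ρ ι) {b : G → A'} (hb : b ∈ Z1 ρ' ι) :
    cup ι P.e ρ' a b + cup ι P.swap.e ρ b a ∈ B2 (omRep p) ι := by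
  refine ⟨-fun g => P.e (a g) (b g), ?_, ?_⟩
  · obtain ⟨E, hE, hla⟩ := ha.1
    obtain ⟨E', hE', hlb⟩ := hb.1
    refine ⟨E ⊔ E', inferInstance, fun g s hs => ?_⟩
    simp only [Pi.neg_apply]
    rw [hla g s (IntermediateField.fixingSubgroup_antitone le_sup_left hs),
      hlb g s (IntermediateField.fixingSubgroup_antitone le_sup_right hs)]
  · funext g h
    simp only [cup, DualPair.swap_apply, d1_apply, omRep_apply, Pi.neg_apply, Pi.add_apply,
      ha.2 g h, hb.2 g h, map_add, LinearMap.add_apply, P.equivariant, mul_neg]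
    abel

/-! ### The invariant -/

variable (hp2 : p ≠ 2) {l : ℕ} {V : ValuationSubring LL} {H : Subgroup GG}

include hp2 in
theorem invL_eq (c : ↥H → ↥H → ZMod p) :
    invL p V H c = invH (Layer.layer hp2) V H (expCochain (zeta p) H c) := dif_pos hp2

theorem expC_of_mem (c : ↥H → ↥H → ZMod p) {g h : GG} (hg : g ∈ H) (hh : h ∈ H) :
    expCochain (zeta p) H c g h = zeta p ^ (c ⟨g, hg⟩ ⟨h, hh⟩).val := by
  simp only [expCochain, dif_pos hg, dif_pos hh]

theorem coc_expC {c : ↥H → ↥H → ZMod p} (hc : c ∈ Z2 (omRep p) H.subtype) :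
    Coc H (expCochain (zeta p) H c) := by
  obtain ⟨⟨F, hF, hlev⟩, hh⟩ := hc
  refine ⟨⟨F, hF, fun g hg g' hg' s hs hsE s' hs' hsE' => ?_⟩, fun g hg h hh' => ?_,
    fun g hg h hh' j hj => ?_⟩
  · rw [expC_of_mem c (mul_mem hg hs) (mul_mem hg' hs'), expC_of_mem c hg hg']
    exact congrArg (fun x : ZMod p => zeta p ^ x.val)
      (hlev ⟨g, hg⟩ ⟨g', hg'⟩ ⟨s, hs⟩ ⟨s', hs'⟩ hsE hsE')
  · rw [expC_of_mem c hg hh']
    exact pow_ne_zero _ ((zeta_spec p).ne_zero (NeZero.ne p))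
  · rw [expC_of_mem c hh' hj, expC_of_mem c hg (mul_mem hh' hj),
      expC_of_mem c (mul_mem hg hh') hj, expC_of_mem c hg hh', apply_zeta_val,
      ← zeta_pow_val_add (zeta_spec p), ← zeta_pow_val_add (zeta_spec p)]
    refine congrArg (fun x : ZMod p => zeta p ^ x.val) ?_
    have h1 := hh ⟨g, hg⟩ ⟨h, hh'⟩ ⟨j, hj⟩
    simp only [omRep_apply, MulMemClass.mk_mul_mk, Subgroup.coe_subtype] at h1
    linear_combination h1

theorem expC_pow (c : ↥H → ↥H → ZMod p) :
    Cob H fun g h => expCochain (zeta p) H c g h ^ p :=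
  (cob_one (H := H)).congr fun g hg h hh => by
    rw [expC_of_mem c hg hh, ← pow_mul, mul_comm, pow_mul, (zeta_spec p).pow_eq_one, one_pow]

theorem cob_expC {c : ↥H → ↥H → ZMod p} (hc : c ∈ B2 (omRep p) H.subtype) :
    Cob H (expCochain (zeta p) H c) := by
  classical
  obtain ⟨u, ⟨F, hF, hu⟩, rfl⟩ := hc
  refine ⟨fun g => if hg : g ∈ H then zeta p ^ (u ⟨g, hg⟩).val else 1,
    ⟨F, hF, fun g hg s hs hsE => ?_⟩, fun g hg => ?_, fun g hg h hh => ?_⟩
  · simp only [dif_pos hg, dif_pos (mul_mem hg hs)]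
    exact congrArg (fun x : ZMod p => zeta p ^ x.val) (hu ⟨g, hg⟩ ⟨s, hs⟩ hsE)
  · simp only [dif_pos hg]
    exact pow_ne_zero _ ((zeta_spec p).ne_zero (NeZero.ne p))
  · have hne : zeta p ^ (u ⟨g * h, mul_mem hg hh⟩).val ≠ 0 :=
      pow_ne_zero _ ((zeta_spec p).ne_zero (NeZero.ne p))
    rw [expC_of_mem _ hg hh, dlt, dif_pos hg, dif_pos hh, dif_pos (mul_mem hg hh), apply_zeta_val,
      eq_div_iff hne, ← zeta_pow_val_add (zeta_spec p), ← zeta_pow_val_add (zeta_spec p)]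
    refine congrArg (fun x : ZMod p => zeta p ^ x.val) ?_
    simp only [d1_apply, omRep_apply, MulMemClass.mk_mul_mk, Subgroup.coe_subtype]
    ring

/-- A two cocycle which is a multiplicative coboundary is a coboundary. -/
theorem mem_B2_of_cob {c : ↥H → ↥H → ZMod p} (h : Cob H (expCochain (zeta p) H c)) :
    c ∈ B2 (omRep p) H.subtype := by
  classical
  have hp := (Fact.out : p.Prime)
  have hζ := zeta_spec p
  obtain ⟨f, hlev, hne, hd⟩ := h
  have hcoc : ∀ σ ∈ H, ∀ τ ∈ H, f (σ * τ) ^ p = σ (f τ ^ p) * f σ ^ p := fun σ hσ τ hτ => by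
    have h1 := congrArg (fun x : LL => x ^ p) (hd σ hσ τ hτ)
    simp only [expC_of_mem c hσ hτ, dlt, ← pow_mul, div_pow, mul_pow] at h1
    rw [mul_comm _ p, pow_mul, hζ.pow_eq_one, one_pow, eq_comm,
      div_eq_one_iff_eq (pow_ne_zero _ (hne _ (mul_mem hσ hτ)))] at h1
    rw [map_pow, h1]
  obtain ⟨b, hb0, hb⟩ := hilbert90 (f := fun σ => f σ ^ p) (hlev.map fun x => x ^ p)
    (fun σ hσ => pow_ne_zero _ (hne σ hσ)) hcoc
  obtain ⟨a, ha⟩ := IsAlgClosed.exists_pow_nat_eq b hp.pos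
  have ha0 : a ≠ 0 := fun e => hb0 (by rw [← ha, e, zero_pow hp.ne_zero])
  let f' : GG → LL := fun σ => f σ * a / σ a
  have hf' : ∀ σ ∈ H, f' σ ^ p = 1 := fun σ hσ => by
    have hσb : σ b ≠ 0 := (map_ne_zero _).2 hb0
    simp only [f', div_pow, mul_pow, hb σ hσ, ← map_pow, ha]
    field_simp
  choose k hk hkz using fun σ : ↥H => hζ.eq_pow_of_pow_eq_one (hf' σ σ.2)
  refine ⟨fun σ => (k σ : ZMod p), ?_, ?_⟩
  · obtain ⟨F, hF, hl⟩ := hlev
    haveI : FiniteDimensional ℚ (IntermediateField.adjoin ℚ ({a} : Set LL)) :=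
      IntermediateField.adjoin.finiteDimensional (integral_coe _)
    refine ⟨F ⊔ IntermediateField.adjoin ℚ {a}, inferInstance, fun g s hs => ?_⟩
    have hsa : (s : GG) a = a := (IntermediateField.mem_fixingSubgroup_iff _ _).1
      (IntermediateField.fixingSubgroup_antitone le_sup_right hs) a
      (IntermediateField.mem_adjoin_simple_self ℚ a)
    have h1 : f' ((g : GG) * s) = f' g := by
      simp only [f']
      rw [hl g g.2 s s.2 (IntermediateField.fixingSubgroup_antitone le_sup_left hs),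
        AlgEquiv.mul_apply, hsa]
    have h2 : zeta p ^ k (g * s) = zeta p ^ k g := by rw [hkz, hkz]; exact h1
    dsimp only
    rw [hζ.pow_inj (hk _) (hk _) h2]
  · funext g h
    have hv : ∀ σ : ↥H, zeta p ^ ((k σ : ZMod p)).val = f' σ := fun σ => by
      rw [ZMod.val_natCast_of_lt (hk σ), hkz]
    have key : zeta p ^ (d1 (omRep p) H.subtype (fun σ => (k σ : ZMod p)) g h).val *
        f' ((g * h : ↥H) : GG) = (g : GG) (f' h) * f' g := by
      rw [← hv, ← hv, ← hv, apply_zeta_val, ← zeta_pow_val_add hζ, ← zeta_pow_val_add hζ]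
      congr 2
      simp only [d1_apply, omRep_apply, Subgroup.coe_subtype]
      ring
    have e : zeta p ^ (d1 (omRep p) H.subtype (fun σ => (k σ : ZMod p)) g h).val =
        expCochain (zeta p) H c g h := by
      have hne' : ∀ σ : ↥H, f' σ ≠ 0 := fun σ =>
        div_ne_zero (mul_ne_zero (hne σ σ.2) ha0) ((map_ne_zero _).2 ha0)
      rw [hd g g.2 h h.2, dlt, eq_div_iff (hne _ (mul_mem g.2 h.2))]
      refine mul_right_cancel₀ (b := a / ((g : GG) * h) a)
        (div_ne_zero ha0 ((map_ne_zero _).2 ha0)) ?_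
      rw [mul_assoc, ← mul_div_assoc]
      refine key.trans ?_
      have h1 : (g : GG) a ≠ 0 := (map_ne_zero _).2 ha0
      simp only [f', map_div₀, map_mul, AlgEquiv.mul_apply]
      field_simp
    rw [expC_of_mem c g.2 h.2] at e
    exact ZMod.val_injective p (hζ.pow_inj (ZMod.val_lt _) (ZMod.val_lt _) e)

variable (hl : l.Prime) (hV : V.LiesOverPrime l)

include hp2 hl hV in
theorem invL_B2 (hH : LocalSub V H) {c : ↥H → ↥H → ZMod p} (hc : c ∈ B2 (omRep p) H.subtype) :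
    invL p V H c = 0 := by
  rw [invL_eq hp2]
  exact invH_of_cob _ hl hV hH (cob_expC hc)

include hp2 hl hV in
theorem invL_add (hH : LocalSub V H) {c c' : ↥H → ↥H → ZMod p} (hc : c ∈ Z2 (omRep p) H.subtype)
    (hc' : c' ∈ Z2 (omRep p) H.subtype) : invL p V H (c + c') = invL p V H c + invL p V H c' := by
  rw [invL_eq hp2, invL_eq hp2, invL_eq hp2]
  have e : expCochain (zeta p) H (c + c') =
      fun g h => expCochain (zeta p) H c g h * expCochain (zeta p) H c' g h := by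
    funext g h
    by_cases hg : g ∈ H
    · by_cases hh : h ∈ H
      · rw [expC_of_mem _ hg hh, expC_of_mem _ hg hh, expC_of_mem _ hg hh,
          ← zeta_pow_val_add (zeta_spec p)]
        rfl
      · simp [expCochain, hh]
    · simp [expCochain, hg]
  rw [e]
  exact invH_mul _ hl hV targetLocal hp2 hH (coc_expC hc) (expC_pow c) (coc_expC hc')
    (expC_pow c')

/-- The invariant as a linear map. -/
def invLin (hp2 : p ≠ 2) (hl : l.Prime) (hV : V.LiesOverPrime l) (hH : LocalSub V H) :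
    ↥(Z2 (omRep p) H.subtype) →ₗ[ZMod p] ZMod p :=
  AddMonoidHom.toZModLinearMap p (AddMonoidHom.mk' (fun c => invL p V H c.1)
    fun c c' => invL_add hp2 hl hV hH c.2 c'.2)

include hp2 hl hV in
theorem invL_smul (hH : LocalSub V H) (r : ZMod p) {c : ↥H → ↥H → ZMod p}
    (hc : c ∈ Z2 (omRep p) H.subtype) : invL p V H (r • c) = r * invL p V H c :=
  (invLin hp2 hl hV hH).map_smul r ⟨c, hc⟩

include hp2 hl hV in
theorem invL_congr (hH : LocalSub V H) {c c' : ↥H → ↥H → ZMod p}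
    (hc : c ∈ Z2 (omRep p) H.subtype) (h : c' - c ∈ B2 (omRep p) H.subtype) :
    invL p V H c' = invL p V H c := by
  have e : c' = c + (c' - c) := by abel
  rw [e, invL_add hp2 hl hV hH hc (B2_le_Z2 smooth_om h), invL_B2 hp2 hl hV hH h, add_zero]

include hp2 hl hV in
theorem invL_swap (hH : LocalSub V H) (hρ : Smooth ρ) (hρ' : Smooth ρ') {a : ↥H → A}
    (ha : a ∈ Z1 ρ H.subtype) {b : ↥H → A'} (hb : b ∈ Z1 ρ' H.subtype) :
    invL p V H (cup H.subtype P.swap.e ρ b a) = -invL p V H (cup H.subtype P.e ρ' a b) := by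
  have h := invL_B2 hp2 hl hV hH (cup_add_swap P ha hb)
  rw [invL_add hp2 hl hV hH (cup_mem_Z2 P hρ' ha hb) (cup_mem_Z2 P.swap hρ hb ha)] at h
  exact eq_neg_of_add_eq_zero_right h

include hp2 hl hV in
theorem invL_conj (γ : GG) (hH : LocalSub V H) {H' : Subgroup GG}
    (hH' : ∀ g, g ∈ H' ↔ γ⁻¹ * g * γ ∈ H) {c : ↥H → ↥H → ZMod p}
    (hc : c ∈ Z2 (omRep p) H.subtype) :
    invL p (γ • V) H' (fun g h => om p γ * c ⟨γ⁻¹ * g * γ, (hH' g).1 g.2⟩
      ⟨γ⁻¹ * h * γ, (hH' h).1 h.2⟩) = invL p V H c := by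
  obtain rfl : H' = conjH γ H := SetLike.ext fun g => (hH' g).trans mem_conjH.symm
  set c' : ↥(conjH γ H) → ↥(conjH γ H) → ZMod p := fun g h =>
    om p γ * c ⟨γ⁻¹ * g * γ, (hH' g).1 g.2⟩ ⟨γ⁻¹ * h * γ, (hH' h).1 h.2⟩
  have h0 := invH_conj (Layer.layer hp2) hl hV targetLocal hp2 γ hH (coc_expC hc) (expC_pow c)
  rw [invL_eq hp2, invL_eq hp2, ← h0]
  congr 1
  funext g h
  by_cases hg : g ∈ conjH γ H
  · by_cases hh : h ∈ conjH γ H
    · rw [expC_of_mem _ hg hh, conjC, expC_of_mem _ (mem_conjH.1 hg) (mem_conjH.1 hh),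
        apply_zeta_val]
    · rw [conjC, expCochain, expCochain, dif_pos hg, dif_neg hh, dif_pos (mem_conjH.1 hg),
        dif_neg fun h' => hh (mem_conjH.2 h'), map_one]
  · rw [conjC, expCochain, expCochain, dif_neg hg, dif_neg fun h' => hg (mem_conjH.2 h'), map_one]

include hp2 in
/-- The sum formula over the rationals. -/
theorem invL_sum (S : Finset Nat.Primes) (hpS : ExtCitation.pPrime p ∈ S)
    (V : Nat.Primes → ValuationSubring LL) (hV : ∀ q, (V q).LiesOverPrime (q : ℕ))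
    {c : GG → GG → ZMod p} (hc : c ∈ Z2S (omRep p) (MonoidHom.id GG) S) :
    ∑ q ∈ S, invL p (V q) (Dec (V q)) (res2 (p := p) (Dec (V q)).subtype c) = 0 := by
  classical
  have hp := (Fact.out : p.Prime)
  have hp3 : 2 < p := lt_of_le_of_ne hp.two_le (Ne.symm hp2)
  have hζ := zeta_spec p
  obtain ⟨Y, hY⟩ : ∃ Y, Y = Layer.layer hp2 := ⟨_, rfl⟩
  obtain ⟨cg, hcg'⟩ : ∃ cg : GG → GG → LL, cg = fun g h => zeta p ^ (c g h).val := ⟨_, rfl⟩
  obtain ⟨⟨⟨F₀, hF₀, hlev₀⟩, hh⟩, F, hF, hlev⟩ := hc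
  have hcg : Coc (⊤ : Subgroup GG) cg := by
    subst hcg'
    refine ⟨⟨F₀, hF₀, fun g _ g' _ s _ hsE s' _ hsE' => congrArg (fun x : ZMod p => zeta p ^ x.val)
      (hlev₀ g g' s s' hsE hsE')⟩, fun _ _ _ _ => pow_ne_zero _ (hζ.ne_zero (NeZero.ne p)),
      fun g _ h _ j _ => ?_⟩
    rw [apply_zeta_val, ← zeta_pow_val_add hζ, ← zeta_pow_val_add hζ]
    refine congrArg (fun x : ZMod p => zeta p ^ x.val) ?_
    have h1 := hh g h j
    simp only [omRep_apply, MonoidHom.id_apply] at h1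
    linear_combination h1
  have hpow : ∀ g h, cg g h ^ p = 1 := fun g h => by
    subst hcg'
    rw [← pow_mul, mul_comm, pow_mul, hζ.pow_eq_one, one_pow]
  have htg : Cob (⊤ : Subgroup GG) fun g h => cg g h ^ p :=
    (cob_one (H := (⊤ : Subgroup GG))).congr fun g _ h _ => hpow g h
  have hopen : OpenIn (⊤ : Subgroup GG) ⊤ := ⟨⊥, inferInstance, inf_le_left⟩
  set T₀ : Finset ℕ := S.image fun q : Nat.Primes => (q : ℕ)
  have hout : ∀ (l : ℕ) (W : ValuationSubring LL), l.Prime → W.LiesOverPrime l → l ∉ T₀ →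
      Cob ((⊤ : Subgroup GG) ⊓ Dec W) cg := fun l W hl hW hlS => by
    have hlS' : (⟨l, hl⟩ : Nat.Primes) ∉ S := fun h =>
      hlS (Finset.mem_image.2 ⟨_, h, rfl⟩)
    refine cob_of_unramified (p := p) targetLocal hl hW (hopen.localSub W)
      (hcg.mono inf_le_left) (fun g _ h _ => hpow g h) (fun σ hσ => ?_) (fun g _ h _ σ hσ => ?_)
    · have h1 : σ (zeta p) = zeta p := by
        refine Hasse.inertia_fix (p := p) hl (fun e => hlS (Finset.mem_image.2
          ⟨_, hpS, e.symm⟩)) hW (valuation_eq_one_of_pow hp.ne_zero hζ.pow_eq_one)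
          (Subgroup.mem_inf.1 hσ).2 (by rw [hζ.pow_eq_one, map_one])
      subst hcg'
      rw [map_pow, h1]
    · have h1 : σ ∈ F.fixingSubgroup :=
        hF.2 ⟨l, hl⟩ hlS' W hW (Subgroup.mem_inf.1 hσ).2
      have e1 := hlev g h σ 1 h1 (one_mem _)
      have e2 := hlev g h 1 σ (one_mem _) h1
      rw [mul_one] at e1 e2
      subst hcg'
      simp only [e1, e2, and_self]
  obtain ⟨n, hn, hlayer⟩ :=
    exists_eq_layer Hasse.targetNormTheorem targetLocal hp3 Y hopen hcg htg T₀ hout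
  obtain ⟨b, hb0, hb, hsim⟩ := hlayer n le_rfl
  obtain ⟨T, hT⟩ := exists_finset_eq_one hb0
  set S' := T₀ ∪ T.filter Nat.Prime
  have hpr' : ∀ l ∈ S', l.Prime := fun l hl => by
    rcases Finset.mem_union.1 hl with h | h
    · obtain ⟨q, -, rfl⟩ := Finset.mem_image.1 h
      exact q.2
    · exact (Finset.mem_filter.1 h).2
  let V' : ℕ → ValuationSubring LL := fun l => if h : l.Prime then V ⟨l, h⟩ else ⊤
  have hV' : ∀ l ∈ S', (V' l).LiesOverPrime l := fun l hl => by
    simp only [V', dif_pos (hpr' l hl)]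
    exact hV _
  have hlocal : ∀ l ∈ S', Y.Φ (V' l) n b =
      (((invH Y (V' l) (Dec (V' l)) cg).val * p ^ (n - 1) : ℕ) : ZMod (p ^ n)) := by
    intro l hl
    have hle : Dec (V' l) ≤ (⊤ : Subgroup GG) := le_top
    have hs : Sim (Dec (V' l)) cg (symR (p ^ n) (Y.ψ n) b) := hsim.mono hle
    obtain ⟨t, ht⟩ := dvd_phi Y (hpr' l hl) (hV' l hl) localSub_self hn hb0
      (fun σ hσ => hb σ (hle hσ)) ((Sim.cob_iff (hs.pow p)).1 (htg.mono hle))
    rw [invH_eq Y (hpr' l hl) (hV' l hl) localSub_self hn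
      ⟨b, hb0, fun σ hσ => hb σ (hle hσ), hs, ht⟩]
    rwa [nrm_of_fixed (localSub_self (V := V' l)).openIn fun σ hσ => hb σ (hle hσ),
      Subgroup.relIndex_self, pow_one] at ht
  have hprod := Y.product n b hb0 (fun σ => hb σ (Subgroup.mem_top σ)) S'
    (Finset.mem_union_left _ (Finset.mem_image.2 ⟨_, hpS, rfl⟩)) hpr' (fun l hl hlS W hW =>
      hT l W hl hW fun h => hlS (Finset.mem_union_right _ (Finset.mem_filter.2 ⟨h, hl⟩))) V' hV'
  rw [Finset.sum_congr rfl hlocal, ← natCast_val_sum' hn] at hprod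
  have h0 : ∑ l ∈ S', invH Y (V' l) (Dec (V' l)) cg = 0 :=
    eq_of_natCast_mul hn (hprod.trans (by rw [ZMod.val_zero, zero_mul, Nat.cast_zero]))
  rw [← h0, ← Finset.sum_subset (Finset.subset_union_left (s₁ := T₀) (s₂ := T.filter Nat.Prime)),
    show T₀ = S.image fun q : Nat.Primes => (q : ℕ) from rfl]
  · refine Eq.trans ?_ (Finset.sum_image fun (a : Nat.Primes) _ b _ (h : (a : ℕ) = b) =>
      Subtype.ext h).symm
    refine Finset.sum_congr rfl fun q hq => ?_
    have hVl : V' (q : ℕ) = V q := dif_pos q.2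
    rw [invL_eq hp2, ← hY, hVl]
    refine invH_congr Y q.2 (hV q) targetLocal hp2 localSub_self (hcg.mono le_top)
      (htg.mono le_top) (Sim.of_eq fun g hg h hh => ?_)
    rw [expC_of_mem _ hg hh, hcg', res2_apply]
    rfl
  · intro l hl hlS
    refine invH_of_cob Y (hpr' l hl) (hV' l hl) localSub_self ?_
    exact (hout l (V' l) (hpr' l hl) (hV' l hl) hlS).mono (le_inf le_top le_rfl)

end FLTAgent.PoitouTate
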