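import Fermat.Agent.PoitouTate.Inv

/-!
# The local invariant detects classes killed by `p`

Over every open subgroup of a decomposition group a class killed by `p` with invariant zero is
trivial.
-/

set_option autoImplicit false
set_option linter.style.haveILetI false
set_option linter.unusedSectionVars false
set_option maxHeartbeats 1000000

noncomputable section

open scoped Pointwise

namespace FLTAgent.PoitouTate

open FLTAgent.Lowering.P1 FLTAgent.Lowering.P1.Brauer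

local notation "LL" => AlgebraicClosure ℚ
local notation "GG" => (AlgebraicClosure ℚ ≃ₐ[ℚ] AlgebraicClosure ℚ)
local notation "Dec" => ValuationSubring.decompositionSubgroup ℚ

variable {p : ℕ} [Fact p.Prime] (Y : CycloLayer p) {V : ValuationSubring LL} {l : ℕ}
  {H P : Subgroup GG}

/-- The invariant is faithful on the classes killed by `p`. -/
def Detects (V : ValuationSubring LL) (H : Subgroup GG) : Prop :=
  ∀ c : GG → GG → LL, Coc H c → (Cob H fun σ τ => c σ τ ^ p) → invH Y V H c = 0 → Cob H c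

/-- At the first layer where a subgroup moves, the layer is a character of order `p`. -/
theorem exists_level_char {j : ℕ} (h0 : ∀ σ ∈ H, Y.ψ j σ = 0)
    (h1 : ∃ σ ∈ H, Y.ψ (j + 1) σ ≠ 0) :
    ∃ χ : CycChar H p, (∀ b : LL, ∀ σ ∈ H, ∀ τ ∈ H,
        symR (p ^ (j + 1)) (Y.ψ (j + 1)) b σ τ = χ.sym b σ τ) ∧
      ∀ σ ∈ H, (Y.ψ (j + 1) σ = 0 ↔ χ.ψ σ = 0) := by
  have hp := (Fact.out : p.Prime)
  obtain ⟨t, htn, χ, hval, -⟩ :=
    exists_scaled (fun σ _ τ _ => Y.mul (j + 1) σ τ) (Brauer.psi_levOn Y (j + 1)) h1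
  have htj : t = j := by
    have h2 := h0 _ χ.gen_mem
    rw [← Y.compat, hval _ χ.gen_mem, χ.ψ_gen, ZMod.natCast_eq_zero_iff] at h2
    haveI : Fact (1 < p ^ (j + 1 - t)) := ⟨χ.one_lt⟩
    rw [ZMod.val_one, mul_one, Nat.pow_dvd_pow_iff_le_right hp.one_lt] at h2
    omega
  subst htj
  have hsym := layer_sym Y htn χ hval
  have he : p ^ (t + 1 - t) = p := by rw [show t + 1 - t = 1 by omega, pow_one]
  haveI := χ.neZero
  clear htn
  revert χ
  generalize p ^ (t + 1 - t) = m at he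
  subst he
  intro χ hval hsym
  refine ⟨χ, hsym, fun σ hσ => ⟨fun h => ?_, fun h => ?_⟩⟩
  · have h2 := hval σ hσ
    rw [h, ZMod.val_zero, eq_comm, mul_eq_zero] at h2
    exact (ZMod.val_eq_zero _).1 (h2.resolve_left (pow_ne_zero _ hp.ne_zero))
  · refine (ZMod.val_eq_zero _).1 ?_
    rw [hval σ hσ, h, ZMod.val_zero, mul_zero]

variable (hl : l.Prime) (hV : V.LiesOverPrime l) (hp2 : p ≠ 2) {ζ : LL} (hζ : IsPrimitiveRoot ζ p)

include hl hV hp2 hζ in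
/-- One class with nonzero invariant suffices. -/
theorem detects_of_exists (hH : LocalSub V H) (hζH : ∀ σ ∈ H, σ ζ = ζ) {c₀ : GG → GG → LL}
    (hc₀ : Coc H c₀) (ht₀ : Cob H fun σ τ => c₀ σ τ ^ p) (hne : invH Y V H c₀ ≠ 0) :
    Detects Y V H := by
  intro c hc ht h0
  obtain ⟨n₁, -, hnz⟩ := exists_nonzero Y hl hV hH
  obtain ⟨s, -, χ, -, -⟩ :=
    exists_scaled (fun σ _ τ _ => Y.mul n₁ σ τ) (Brauer.psi_levOn Y n₁) (hnz n₁ le_rfl)
  obtain ⟨d, hd0, hd, hcd⟩ := χ.red.exists_eq_sym hc₀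
    (cob_ker_of_torsion targetLocal hl hV hp2 hH hc₀ ht₀ χ.red)
  obtain ⟨b, hb0, hb, hcb⟩ := χ.red.exists_eq_sym hc
    (cob_ker_of_torsion targetLocal hl hV hp2 hH hc ht χ.red)
  have hsd : Sim H c₀ (χ.red.sym d) :=
    sim_of_cob_div hcd fun σ _ τ _ => by rw [χ.red.sym_eq]; exact symR_ne _ hd0 σ τ
  have hdn : ¬ Cob H (χ.red.sym d) := fun h =>
    hne (invH_of_cob Y hl hV hH (hsd.cob_iff.2 h))
  obtain ⟨k, hk⟩ := exists_sim_pow (normIndex_of_local targetLocal hl hV hζ hζH hH) χ.red hd0 hd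
    hdn hb0 hb
  have hs : Sim H c fun σ τ => c₀ σ τ ^ k :=
    (sim_of_cob_div hcb fun σ _ τ _ => by rw [χ.red.sym_eq]; exact symR_ne _ hb0 σ τ).trans
      (hk.trans (hsd.pow k).symm)
  have e := invH_congr Y hl hV targetLocal hp2 hH hc ht hs
  rw [h0, invH_pow Y hl hV targetLocal hp2 hH hc₀ ht₀, mul_eq_zero, or_iff_left hne,
    ZMod.natCast_eq_zero_iff] at e
  obtain ⟨u, rfl⟩ := e
  exact hs.cob_iff.2 ((ht₀.pow u).congr fun σ _ τ _ => pow_mul _ _ _)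

include hl hV hp2 in
/-- Faithfulness passes up an index prime to `p`. -/
theorem detects_of_coprime (hP : LocalSub V P) (hH : LocalSub V H) (hle : H ≤ P)
    (hidx : ¬ p ∣ H.relIndex P) (h : Detects Y V H) : Detects Y V P := by
  intro c hc ht h0
  have h1 : Cob H c := h c (hc.mono hle) (ht.mono hle) (by
    rw [invH_res Y hl hV targetLocal hp2 hP hH hle hc ht, h0, mul_zero])
  have ho : OpenIn H P :=
    let ⟨E, hE, h⟩ := hH.openIn; ⟨E, hE, (inf_le_inf_right _ hP.le).trans h⟩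
  exact cob_of_coprime (Fact.out : p.Prime).one_lt ht (cob_pow_index hc hle ho h1)
    ((Nat.Prime.coprime_iff_not_dvd Fact.out).2 hidx).symm

/-- Two independent characters do not share their norms. -/
theorem exists_norm_not_norm (hidx : NormIndex p P) (hp2 : p ≠ 2)
    (hζ : IsPrimitiveRoot ζ p) (hζP : ∀ σ ∈ P, σ ζ = ζ) (χ χ' : CycChar P p)
    (hind : ∃ σ ∈ P, χ'.ψ σ = 0 ∧ χ.ψ σ ≠ 0) :
    ∃ b : LL, χ'.IsNorm b ∧ b ≠ 0 ∧ (∀ σ ∈ P, σ b = b) ∧ ¬ χ.IsNorm b := by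
  haveI : NeZero p := ⟨(Fact.out : p.Prime).ne_zero⟩
  by_contra hcon
  push Not at hcon
  obtain ⟨b₁, hb₁0, hb₁, -, hall⟩ := hidx χ'
  have hsub : ∀ b : LL, b ≠ 0 → (∀ σ ∈ P, σ b = b) → ∃ i : ℕ, χ'.IsNorm (b * b₁ ^ i) ∧
      χ.IsNorm (b * b₁ ^ i) := fun b hb0 hb => by
    obtain ⟨i, -, hi⟩ := hall b hb0 hb
    exact ⟨i, hi, hcon _ hi (mul_ne_zero hb0 (pow_ne_zero _ hb₁0))
      fun σ hσ => by rw [map_mul, map_pow, hb σ hσ, hb₁ σ hσ]⟩
  -- a character killing `b₁`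
  have hχ₁ : ¬ Cob P (χ.sym b₁) := by
    intro hc
    obtain ⟨b₀, hb₀0, hb₀, hnb₀, -⟩ := hidx χ
    obtain ⟨i, -, hi⟩ := hsub b₀ hb₀0 hb₀
    refine hnb₀ (χ.norm_of_cob_sym ?_)
    refine ((χ.cob_sym_of_norm hi).mul (hc.pow i).inv).congr fun σ _ τ _ => ?_
    rw [χ.sym_mul, χ.sym_pow, mul_inv_cancel_right₀]
    rw [χ.sym_eq]; exact pow_ne_zero _ (symR_ne _ hb₁0 σ τ)
  obtain ⟨b', hb'0, hb', hs'⟩ := sim_sym_line hp2 hζ hζP hidx χ' χ hb₁0 hb₁
  obtain ⟨k, hk⟩ := exists_sim_pow hidx χ hb₁0 hb₁ hχ₁ hb'0 hb'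
  have hline : Sim P (χ'.sym b₁) fun σ τ => χ.sym b₁ σ τ ^ k := hs'.trans hk
  set m := (-(k : ZMod p)).val with hm
  have hmk : (m : ZMod p) + (k : ZMod p) = 0 := by
    rw [hm, ZMod.natCast_zmod_val, neg_add_cancel]
  let ψ'' : GG → ZMod p := fun σ => χ'.ψ σ + (m : ZMod p) * χ.ψ σ
  have hadd : ∀ σ ∈ P, ∀ τ ∈ P, ψ'' (σ * τ) = ψ'' σ + ψ'' τ := fun σ hσ τ hτ => by
    simp only [ψ'', χ'.mul σ hσ τ hτ, χ.mul σ hσ τ hτ]; ring
  have hlev : LevOn P ψ'' := χ'.lev.map₂ χ.lev fun x y => x + (m : ZMod p) * y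
  have hne : ∃ σ ∈ P, ψ'' σ ≠ 0 := by
    obtain ⟨σ, hσ, h1, h2⟩ := hind
    by_cases hm0 : (m : ZMod p) = 0
    · exact ⟨χ'.gen, χ'.gen_mem, by simp [ψ'', hm0, χ'.ψ_gen]⟩
    · exact ⟨σ, hσ, by simp [ψ'', h1, mul_ne_zero hm0 h2]⟩
  let χ'' := CycChar.ofNe hadd hlev hne
  have hsum : ∀ b : LL, b ≠ 0 → (∀ σ ∈ P, σ b = b) →
      Sim P (χ''.sym b) fun σ τ => χ'.sym b σ τ * χ.sym b σ τ ^ m := fun b hb0 hb =>
    (sim_symR_add χ'.mul χ'.lev (ψ₂ := fun σ => (m : ZMod p) * χ.ψ σ)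
      (fun σ hσ τ hτ => by rw [χ.mul σ hσ τ hτ, mul_add]) (χ.lev.map fun x => (m : ZMod p) * x)
      (fun σ _ => rfl) hb0 hb).trans
      ((Sim.refl (symR p χ'.ψ b)).mul (sim_symR_smul χ.mul χ.lev m hb0 hb))
  obtain ⟨b₂, hb₂0, hb₂, hnb₂, -⟩ := hidx χ''
  obtain ⟨i, hi', hi⟩ := hsub b₂ hb₂0 hb₂
  set e := b₂ * b₁ ^ i with he
  have he0 : e ≠ 0 := mul_ne_zero hb₂0 (pow_ne_zero _ hb₁0)
  have hefix : ∀ σ ∈ P, σ e = e := fun σ hσ => by
    rw [he, map_mul, map_pow, hb₂ σ hσ, hb₁ σ hσ]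
  have he1 : Cob P (χ''.sym e) := (hsum e he0 hefix).cob_iff.2
    (((χ'.cob_sym_of_norm hi').mul ((χ.cob_sym_of_norm hi).pow m)).congr fun σ _ τ _ => rfl)
  have hb₁1 : Cob P (χ''.sym b₁) := by
    refine (hsum b₁ hb₁0 hb₁).cob_iff.2 ((hline.mul (Sim.refl _)).cob_iff.2 ?_)
    obtain ⟨u, hu⟩ : p ∣ k + m := by
      rw [← ZMod.natCast_eq_zero_iff, Nat.cast_add, add_comm]; exact hmk
    exact ((cob_sym_pow_p χ hb₁0 hb₁).pow u).congr fun σ _ τ _ => by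
      rw [← pow_add, hu, pow_mul]
  refine hnb₂ (χ''.norm_of_cob_sym ((he1.mul (hb₁1.pow i).inv).congr fun σ _ τ _ => ?_))
  rw [he, χ''.sym_mul, χ''.sym_pow, mul_inv_cancel_right₀]
  rw [χ''.sym_eq]; exact pow_ne_zero _ (symR_ne _ hb₁0 σ τ)

include hl hV hp2 hζ in
/-- A symbol which is not trivial has a nonzero local symbol of its norm. -/
theorem phi_ne_of_detects (hP : LocalSub V P) (hdet : Detects Y V P) {j : ℕ}
    {χ : CycChar P p} (hχ : ∀ b : LL, ∀ σ ∈ P, ∀ τ ∈ P,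
      symR (p ^ (j + 1)) (Y.ψ (j + 1)) b σ τ = χ.sym b σ τ)
    (h1 : ∃ σ ∈ P, Y.ψ (j + 1) σ ≠ 0) {a : LL} (ha0 : a ≠ 0) (ha : ∀ σ ∈ P, σ a = a)
    (han : ¬ χ.IsNorm a) : Y.Φ V (j + 1) (nrm P (Dec V) a) ≠ 0 := by
  intro hΦ
  have hc := Brauer.coc_symR Y (n := j + 1) ha0 ha
  have ht : Cob P fun σ τ => symR (p ^ (j + 1)) (Y.ψ (j + 1)) a σ τ ^ p :=
    (cob_sym_pow_p χ ha0 ha).congr fun σ hσ τ hτ => by rw [hχ a σ hσ τ hτ]
  obtain ⟨b, hb0, hb, hs, he⟩ := hasInv_invH Y hl hV targetLocal hp2 hP hc ht h1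
  refine han (χ.norm_of_cob_sym ((hdet _ hc ht ?_).congr fun σ hσ τ hτ => (hχ a σ hσ τ hτ).symm))
  refine eq_of_natCast_mul (Nat.succ_pos j) ?_
  rw [← he, ← phi_eq_of_sim Y hl hV hP (j + 1) ha0 hb0 ha hb hs, hΦ, ZMod.val_zero, zero_mul,
    Nat.cast_zero]

include hl hV hp2 hζ in
/-- A symbol of order `p` with a nonzero norm symbol gives faithfulness. -/
theorem detects_of_phi_ne (hH : LocalSub V H) (hζH : ∀ σ ∈ H, σ ζ = ζ) {j : ℕ}
    (h0 : ∀ σ ∈ H, Y.ψ j σ = 0) (h1 : ∃ σ ∈ H, Y.ψ (j + 1) σ ≠ 0) {b : LL} (hb0 : b ≠ 0)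
    (hb : ∀ σ ∈ H, σ b = b) (hΦ : Y.Φ V (j + 1) (nrm H (Dec V) b) ≠ 0) : Detects Y V H := by
  obtain ⟨χ, hχ, -⟩ := exists_level_char Y h0 h1
  have hc := Brauer.coc_symR Y (n := j + 1) hb0 hb
  have ht : Cob H fun σ τ => symR (p ^ (j + 1)) (Y.ψ (j + 1)) b σ τ ^ p :=
    (cob_sym_pow_p χ hb0 hb).congr fun σ hσ τ hτ => by rw [hχ b σ hσ τ hτ]
  obtain ⟨t, he⟩ := dvd_phi Y hl hV hH (Nat.succ_pos j) hb0 hb ht
  refine detects_of_exists Y hl hV hp2 hζ hH hζH hc ht ?_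
  rw [invH_eq Y hl hV hH (Nat.succ_pos j) ⟨b, hb0, hb, Sim.refl _, he⟩]
  rintro rfl
  exact hΦ (by rw [he, ZMod.val_zero, zero_mul, Nat.cast_zero])

include hl hV hp2 hζ in
/-- Faithfulness passes down to a kernel. -/
theorem detects_ker (hP : LocalSub V P) (hζP : ∀ σ ∈ P, σ ζ = ζ) (hdet : Detects Y V P)
    (χ' : CycChar P p) : Detects Y V χ'.ker := by
  classical
  have hp := (Fact.out : p.Prime)
  have hidx := normIndex_of_local targetLocal hl hV hζ hζP hP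
  obtain ⟨n₁, -, hne⟩ := exists_nonzero Y hl hV hP
  have hex : ∃ n, ∃ σ ∈ P, Y.ψ n σ ≠ 0 := ⟨n₁, hne n₁ le_rfl⟩
  obtain ⟨j, hj⟩ : ∃ j, Nat.find hex = j + 1 := Nat.exists_eq_succ_of_ne_zero fun h => by
    obtain ⟨σ, -, hσ⟩ := Nat.find_spec hex
    rw [h] at hσ
    exact hσ (Subsingleton.elim (α := ZMod 1) _ _)
  have h1 : ∃ σ ∈ P, Y.ψ (j + 1) σ ≠ 0 := hj ▸ Nat.find_spec hex
  have h0 : ∀ σ ∈ P, Y.ψ j σ = 0 := fun σ hσ => by
    by_contra h
    exact Nat.find_min hex (show j < _ by omega) ⟨σ, hσ, h⟩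
  obtain ⟨χ, hχ, hχ0⟩ := exists_level_char Y h0 h1
  have hker : LocalSub V χ'.ker := hP.ker χ'
  have hζ' : ∀ σ ∈ χ'.ker, σ ζ = ζ := fun σ hσ => hζP σ (χ'.ker_le hσ)
  have hr : χ'.ker.relIndex P = p := (ker_relIndex χ').2
  by_cases hcase : ∃ σ ∈ P, χ'.ψ σ = 0 ∧ χ.ψ σ ≠ 0
  · obtain ⟨d, hdn', hd0, hd, hdn⟩ := exists_norm_not_norm hidx hp2 hζ hζP χ χ' hcase
    obtain ⟨y, hy0, hy, hye⟩ := (isNorm_iff_nrm χ' d).1 hdn'
    obtain ⟨σ, hσ, hσ', hσχ⟩ := hcase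
    refine detects_of_phi_ne Y hl hV hp2 hζ hker hζ' (fun τ hτ => h0 τ (χ'.ker_le hτ))
      ⟨σ, ⟨hσ, hσ'⟩, fun h => hσχ ((hχ0 σ hσ).1 h)⟩ hy0 hy ?_
    rw [← nrm_trans χ'.ker_le hP.le χ'.openIn hP.openIn hy, hye]
    exact phi_ne_of_detects Y hl hV hp2 hζ hP hdet hχ h1 hd0 hd hdn
  · push Not at hcase
    obtain ⟨a, ha0, ha, han, -⟩ := hidx χ
    have hΦ := phi_ne_of_detects Y hl hV hp2 hζ hP hdet hχ h1 ha0 ha han
    have hx0 := nrm_ne hP.openIn ha0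
    have hx : ∀ σ ∈ Dec V, σ (nrm P (Dec V) a) = nrm P (Dec V) a := fun σ hσ =>
      nrm_fixed hP.openIn ha hσ
    haveI : NeZero (p ^ (j + 1)) := ⟨pow_ne_zero _ hp.ne_zero⟩
    haveI : NeZero (p ^ (j + 1 + 1)) := ⟨pow_ne_zero _ hp.ne_zero⟩
    have hmul : ∀ v : ZMod (p ^ (j + 1 + 1)), (v.val : ZMod (p ^ (j + 1))) ≠ 0 →
        (p : ZMod (p ^ (j + 1 + 1))) * v ≠ 0 := fun v hv h => by
      rw [← ZMod.natCast_zmod_val v, ← Nat.cast_mul, ZMod.natCast_eq_zero_iff] at h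
      exact hv ((ZMod.natCast_eq_zero_iff _ _).2
        (Nat.dvd_of_mul_dvd_mul_left hp.pos ((dvd_of_eq (pow_succ' p (j + 1)).symm).trans h)))
    have hgen : χ.gen ^ p ∈ χ'.ker := ⟨pow_mem χ.gen_mem _, by
      have : ∀ k : ℕ, χ'.ψ (χ.gen ^ k) = (k : ZMod p) * χ'.ψ χ.gen := fun k => by
        induction k with
        | zero => simp [χ'.map_one']
        | succ k ih =>
          rw [pow_succ, χ'.mul _ (pow_mem χ.gen_mem k) _ χ.gen_mem, ih, Nat.cast_succ]; ring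
      show χ'.ψ (χ.gen ^ p) = 0
      rw [this, ZMod.natCast_self, zero_mul]⟩
    refine detects_of_phi_ne Y hl hV hp2 hζ hker hζ' (j := j + 1)
      (fun τ hτ => (hχ0 τ (χ'.ker_le hτ)).2 (hcase τ (χ'.ker_le hτ) hτ.2))
      ⟨_, hgen, ?_⟩ ha0 (fun σ hσ => ha σ (χ'.ker_le hσ)) ?_
    · rw [Brauer.psi_pow]
      refine hmul _ ?_
      rw [Y.compat]
      intro h
      have := (hχ0 _ χ.gen_mem).1 h
      rw [χ.ψ_gen] at this
      exact one_ne_zero this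
    · rw [← nrm_trans χ'.ker_le hP.le χ'.openIn hP.openIn fun σ hσ => ha σ (χ'.ker_le hσ),
        nrm_of_fixed χ'.openIn ha, hr, Brauer.nrm_pow hP.openIn,
        Brauer.phi_pow Y hl hV _ hx0 hx]
      refine hmul _ ?_
      rw [Y.Φ_compat l V hl hV _ _ hx hx0]
      exact hΦ

include hl hV hp2 hζ in
/-- The invariant detects classes killed by `p` over every open subgroup. -/
theorem detects (hH : LocalSub V H) : Detects Y V H := by
  classical
  have hp := (Fact.out : p.Prime)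
  obtain ⟨E₀, hE₀, hle₀⟩ := hH.openIn
  haveI : FiniteDimensional ℚ (IntermediateField.adjoin ℚ ({ζ} : Set LL)) :=
    IntermediateField.adjoin.finiteDimensional (integral_coe _)
  obtain ⟨E, hEf, hEn, hle⟩ := exists_normal_le (E₀ ⊔ IntermediateField.adjoin ℚ ({ζ} : Set LL))
  have hfixζ : ∀ σ ∈ E.fixingSubgroup, σ ζ = ζ := fun σ hσ =>
    (IntermediateField.mem_fixingSubgroup_iff _ _).1 hσ ζ
      (hle (le_sup_right (a := E₀) (IntermediateField.mem_adjoin_simple_self ℚ ζ)))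
  let R : ↥(Dec V) →* (E ≃ₐ[ℚ] E) := (AlgEquiv.restrictNormalHom E).comp (Dec V).subtype
  have hRE : ∀ x : ↥(Dec V), R x = 1 ↔ (x : GG) ∈ E.fixingSubgroup := fun x => by
    rw [IntermediateField.mem_fixingSubgroup_iff]
    constructor
    · intro hx y hy
      have h := AlgEquiv.restrictNormal_commutes (x : GG) E ⟨y, hy⟩
      rw [show (x : GG).restrictNormal E = R x from rfl, hx] at h
      simpa using h.symm
    · intro hx
      exact AlgEquiv.ext fun y => Subtype.ext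
        ((AlgEquiv.restrictNormal_commutes (x : GG) E y).trans (hx _ y.2))
  let f := R.rangeRestrict
  have hf : Function.Surjective f := R.rangeRestrict_surjective
  have hfE : ∀ x : ↥(Dec V), f x = 1 ↔ (x : GG) ∈ E.fixingSubgroup := fun x =>
    (Subtype.ext_iff).trans (hRE x)
  have hopen : ∀ Q : Subgroup R.range, LocalSub V (preImg f Q) := fun Q =>
    ⟨preImg_le f Q, E, hEf, fun σ hσ => mem_preImg.2 ⟨(Subgroup.mem_inf.1 hσ).1, by
      rw [(hfE _).2 (Subgroup.mem_inf.1 hσ).2]; exact one_mem Q⟩⟩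
  have hzeta : ∀ Q : Subgroup R.range, IsPGroup p Q → ∀ σ ∈ preImg f Q, σ ζ = ζ := by
    intro Q hQ σ hσ
    obtain ⟨hσD, hσQ⟩ := mem_preImg.1 hσ
    obtain ⟨k, hk⟩ := hQ ⟨_, hσQ⟩
    have h1 : σ ^ p ^ k ∈ fixZ hζ := (mem_fixZ hζ).2 (hfixζ _ (by
      refine (hfE ⟨σ ^ p ^ k, pow_mem hσD _⟩).1 ?_
      rw [show (⟨σ ^ p ^ k, pow_mem hσD _⟩ : ↥(Dec V)) = ⟨σ, hσD⟩ ^ p ^ k from rfl, map_pow]
      exact congrArg Subtype.val hk))
    rw [← mem_fixZ hζ, fixZ, MonoidHom.mem_ker]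
    rw [fixZ, MonoidHom.mem_ker, map_pow] at h1
    refine Units.ext ?_
    have h2 := congrArg (fun u : (ZMod p)ˣ => (u : ZMod p)) h1
    rwa [Units.val_pow_eq_pow_val, ZMod.pow_card_pow, Units.val_one] at h2
  -- the image of the subgroup and its Sylow subgroup
  let QH : Subgroup R.range := (H.subgroupOf (Dec V)).map f
  have hpre : preImg f QH = H := by
    ext σ
    refine ⟨fun hσ => ?_, fun hσ => mem_preImg.2 ⟨hH.le hσ, ⟨_, hσ, rfl⟩⟩⟩
    obtain ⟨hσD, x, hx, hxe⟩ := mem_preImg.1 hσ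
    have h1 : (x⁻¹ * (⟨σ, hσD⟩ : ↥(Dec V)) : GG) ∈ E.fixingSubgroup :=
      (hfE (x⁻¹ * ⟨σ, hσD⟩)).1 (by rw [map_mul, map_inv, hxe, inv_mul_cancel])
    have h2 := hle₀ (Subgroup.mem_inf.2 ⟨mul_mem (inv_mem x.2) hσD,
      IntermediateField.fixingSubgroup_antitone (le_sup_left.trans hle) h1⟩)
    have h3 := mul_mem (Subgroup.mem_subgroupOf.1 hx) h2
    simpa using h3
  obtain ⟨PH⟩ : Nonempty (Sylow p QH) := inferInstance
  set Q₀ : Subgroup R.range := (PH : Subgroup QH).map QH.subtype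
  have hQ₀H : Q₀ ≤ QH := Subgroup.map_subtype_le _
  have hQ₀p : IsPGroup p Q₀ := PH.isPGroup'.map _
  obtain ⟨P, hP⟩ := hQ₀p.exists_le_sylow
  have hcop : ¬ p ∣ (preImg f Q₀).relIndex H := by
    conv => arg 1; arg 2; arg 2; rw [← hpre]
    rw [preImg, preImg, Subgroup.relIndex_map_map_of_injective _ _ (Dec V).subtype_injective,
      Subgroup.relIndex_comap, Subgroup.map_comap_eq_self_of_surjective hf, Subgroup.relIndex,
      show Q₀.subgroupOf QH = (PH : Subgroup QH) from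
        Subgroup.comap_map_eq_self_of_injective QH.subtype_injective _]
    exact PH.not_dvd_index
  refine detects_of_coprime Y hl hV hp2 hH (hopen Q₀)
    (fun σ hσ => hpre ▸ (Subgroup.map_mono (Subgroup.comap_mono hQ₀H)) hσ) hcop ?_
  suffices key : ∀ (d : ℕ) (Q : Subgroup R.range), Q ≤ P →
      Nat.card (P : Subgroup R.range) ≤ Nat.card Q + d → Detects Y V (preImg f Q) from
    key _ Q₀ hP le_add_self
  intro d
  induction d with
  | zero =>
    intro Q hQ hc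
    have hQP : Q = (P : Subgroup R.range) := Subgroup.eq_of_le_of_card_ge hQ (by omega)
    subst hQP
    intro c hc ht h0
    refine cob_of_invH_eq_zero Y hl hV targetLocal hp2 (hopen _) hζ
      (hzeta _ P.isPGroup') ?_ hc ht h0
    rw [preImg_index f hf]
    exact P.not_dvd_index
  | succ d ih =>
    intro Q hQ hc
    by_cases hle' : Nat.card (P : Subgroup R.range) ≤ Nat.card Q + d
    · exact ih Q hQ hle'
    obtain ⟨k, hk⟩ := (P.isPGroup'.to_le hQ).exists_card_eq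
    obtain ⟨kP, hkP⟩ := P.isPGroup'.exists_card_eq
    have hlt : k + 1 ≤ kP := by
      by_contra h
      have : Nat.card (P : Subgroup R.range) ≤ Nat.card Q := by
        rw [hk, hkP]; exact Nat.pow_le_pow_right hp.pos (by omega)
      omega
    obtain ⟨K, hK, hQK⟩ := Sylow.exists_subgroup_card_pow_succ (p := p)
      (G := (P : Subgroup R.range)) (n := k) (H := Q.subgroupOf P)
      (hkP ▸ pow_dvd_pow p hlt)
      (by rw [← hk]; exact Nat.card_congr (Subgroup.subgroupOfEquivOfLe hQ).toEquiv)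
    set Q' : Subgroup R.range := K.map (P : Subgroup R.range).subtype
    have hQ'P : Q' ≤ P := Subgroup.map_subtype_le _
    have hQQ' : Q ≤ Q' := fun x hx => ⟨⟨x, hQ hx⟩, hQK hx, rfl⟩
    have hcard : Nat.card Q' = p ^ (k + 1) := by
      rw [← hK]
      exact (Nat.card_congr (Subgroup.equivMapOfInjective K _
        (P : Subgroup R.range).subtype_injective).toEquiv).symm
    have hidx : (Q.subgroupOf Q').index = p := by
      have h := (Q.subgroupOf Q').card_mul_index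
      rw [Nat.card_congr (Subgroup.subgroupOfEquivOfLe hQQ').toEquiv, hk, hcard, pow_succ] at h
      exact mul_left_cancel₀ (pow_ne_zero _ hp.ne_zero) h
    haveI : (Q.subgroupOf Q').Normal := Subgroup.normal_of_index_eq_minFac_card
      (by rw [hidx, hcard, hp.pow_minFac (Nat.succ_ne_zero k)])
    obtain ⟨ψ, hadd, hzero⟩ := exists_quot_char f (Q.subgroupOf Q') hidx
    rw [Subgroup.map_subgroupOf_eq_of_le hQQ'] at hzero
    have hnle : ∃ σ ∈ preImg f Q', ψ σ ≠ 0 := by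
      by_contra hcon
      push Not at hcon
      have hle2 : Q' ≤ Q := fun x hx => by
        obtain ⟨y, rfl⟩ := hf x
        obtain ⟨_, h⟩ := mem_preImg.1 ((hzero _ (mem_preImg.2 ⟨y.2, hx⟩)).1
          (hcon _ (mem_preImg.2 ⟨y.2, hx⟩)))
        exact h
      have := Nat.card_congr (Equiv.setCongr (congrArg (fun S : Subgroup R.range => (S : Set R.range))
        (le_antisymm hle2 hQQ')))
      rw [SetLike.coe_sort_coe, SetLike.coe_sort_coe, hcard, hk] at this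
      exact absurd (Nat.pow_right_injective hp.two_le this) (Nat.succ_ne_self k)
    have hlev : LevOn (preImg f Q') ψ := ⟨E, hEf, fun g hg s hs hsE => by
      rw [hadd g hg s hs, (hzero s hs).2 (mem_preImg.2 ⟨(hopen Q').le hs, by
        rw [(hfE _).2 hsE]; exact one_mem Q⟩), add_zero]⟩
    let χ' : CycChar (preImg f Q') p := CycChar.ofNe hadd hlev hnle
    have hker : χ'.ker = preImg f Q := SetLike.ext fun σ =>
      ⟨fun (h : σ ∈ χ'.ker) => (hzero σ h.1).1 h.2, fun h =>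
        have h' : σ ∈ preImg f Q' := Subgroup.map_mono (Subgroup.comap_mono hQQ') h
        ⟨h', (hzero σ h').2 h⟩⟩
    rw [← hker]
    refine detects_ker Y hl hV hp2 hζ (hopen Q') (hzeta _ (P.isPGroup'.to_le hQ'P))
      (ih Q' hQ'P ?_) χ'
    have : Nat.card Q < Nat.card Q' := by
      rw [hk, hcard]; exact Nat.pow_lt_pow_right hp.one_lt (Nat.lt_succ_self k)
    omega

omit Y hζ

include hl hV hp2 in
/-- An additive two cocycle with invariant zero is a coboundary. -/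
theorem mem_B2_of_invL_eq_zero (hH : LocalSub V H) {c : ↥H → ↥H → ZMod p} (hc : c ∈ Z2 (omRep p) H.subtype) (h0 : invL p V H c = 0) :
    c ∈ B2 (omRep p) H.subtype :=
  mem_B2_of_cob (detects (Layer.layer hp2) hl hV hp2 (zeta_spec p) hH _ (coc_expC hc)
    (expC_pow c) ((invL_eq hp2 c).symm.trans h0))

theorem om_eq_one_iff (g : GG) : om p g = 1 ↔ g (zeta p) = zeta p := by
  refine ⟨fun h => ?_, om_eq_one_of_fix⟩
  haveI : Fact (1 < p) := ⟨(Fact.out : p.Prime).one_lt⟩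
  rw [apply_zeta, h, ZMod.val_one, pow_one]

end FLTAgent.PoitouTate
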