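import Fermat.Prelude.Def_GroupCohomology_ContinuousUnramified
import Fermat.Agent.Lowering.P1.Brauer.Layer
import Fermat.Agent.Lowering.P1.Brauer.LocalInv
import Fermat.Agent.Lowering.P1.Brauer.Hasse.Basic

/-!
# Additive cochains for the Poitou-Tate pairing

Cochains of a group mapping to the absolute Galois group, with values in a representation over
`ZMod p`, constant on the cosets of number fields (unramified outside `S` where indicated).
-/

set_option autoImplicit false

noncomputable section

open scoped Pointwise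

namespace FLTAgent.PoitouTate

open FLTAgent.Lowering.P1 FLTAgent.Lowering.P1.Brauer

local notation "LL" => AlgebraicClosure ℚ
local notation "GG" => (AlgebraicClosure ℚ ≃ₐ[ℚ] AlgebraicClosure ℚ)
local notation "Dec" => ValuationSubring.decompositionSubgroup ℚ

variable (p : ℕ) [Fact p.Prime]

/-- The cyclotomic character modulo `p`. -/
def om (g : GG) : ZMod p := ((ExtCitation.cycloChar p g : (ZMod p)ˣ) : ZMod p)

/-- The cyclotomic line. -/
def omRep : Representation (ZMod p) GG (ZMod p) where
  toFun g := om p g • LinearMap.id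
  map_one' := by simp [om, Module.End.one_eq_id]
  map_mul' g h := by
    refine LinearMap.ext fun x => ?_
    simp [om]
    ring

theorem exists_primitive_root : ∃ ζ : LL, IsPrimitiveRoot ζ p := by
  haveI : NeZero (p : LL) := ⟨Nat.cast_ne_zero.2 (Fact.out : p.Prime).ne_zero⟩
  exact HasEnoughRootsOfUnity.exists_primitiveRoot LL p

/-- A fixed primitive root of unity. -/
def zeta : LL := (exists_primitive_root p).choose

theorem zeta_spec : IsPrimitiveRoot (zeta p) p := (exists_primitive_root p).choose_spec

/-- The local invariant of a two cochain with values in the cyclotomic line. -/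
def invL (V : ValuationSubring LL) (H : Subgroup GG) (c : ↥H → ↥H → ZMod p) : ZMod p :=
  if h : p ≠ 2 then invH (Layer.layer h) V H (expCochain (zeta p) H c) else 0

variable {p} {A : Type} [AddCommGroup A] [Module (ZMod p) A] (ρ : Representation (ZMod p) GG A)
  {G G' : Type} [Group G] [Group G'] (ι : G →* GG)

/-- The coboundary of an element. -/
def d0 : A →ₗ[ZMod p] G → A := LinearMap.pi fun g => ρ (ι g) - LinearMap.id

/-- The coboundary of a one cochain. -/
def d1 : (G → A) →ₗ[ZMod p] G → G → A :=
  LinearMap.pi fun g => LinearMap.pi fun h =>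
    ρ (ι g) ∘ₗ (LinearMap.proj h : (G → A) →ₗ[ZMod p] A) - (LinearMap.proj (g * h) : (G → A) →ₗ[ZMod p] A) +
      (LinearMap.proj g : (G → A) →ₗ[ZMod p] A)

theorem d0_apply (a : A) (g : G) : d0 ρ ι a g = ρ (ι g) a - a := rfl

theorem d1_apply (c : G → A) (g h : G) : d1 ρ ι c g h = ρ (ι g) (c h) - c (g * h) + c g := rfl

/-- Coboundaries. -/
def B1 : Submodule (ZMod p) (G → A) := LinearMap.range (d0 ρ ι)

/-- One cocycles of a number field level. -/
def Z1 : Submodule (ZMod p) (G → A) where
  carrier := {c | LevC ι c ∧ ∀ g h, c (g * h) = c g + ρ (ι g) (c h)}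
  zero_mem' := ⟨⟨⊥, inferInstance, fun _ _ _ => rfl⟩, fun _ _ => by simp⟩
  add_mem' := by
    rintro a b ⟨⟨F, hF, ha⟩, ha'⟩ ⟨⟨E, hE, hb⟩, hb'⟩
    refine ⟨⟨F ⊔ E, inferInstance, fun g s hs => ?_⟩, fun g h => ?_⟩
    · simp only [Pi.add_apply]
      rw [ha g s (IntermediateField.fixingSubgroup_antitone le_sup_left hs),
        hb g s (IntermediateField.fixingSubgroup_antitone le_sup_right hs)]
    · simp only [Pi.add_apply, ha', hb', map_add]
      abel
  smul_mem' := by
    rintro r a ⟨⟨F, hF, ha⟩, ha'⟩
    exact ⟨⟨F, hF, fun g s hs => by simp only [Pi.smul_apply, ha g s hs]⟩,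
      fun g h => by simp only [Pi.smul_apply, ha', smul_add, map_smul]⟩

/-- Two cocycles of a number field level. -/
def Z2 : Submodule (ZMod p) (G → G → A) where
  carrier := {c | LevC₂ ι c ∧ ∀ g h j, ρ (ι g) (c h j) - c (g * h) j + c g (h * j) - c g h = 0}
  zero_mem' := ⟨⟨⊥, inferInstance, fun _ _ _ _ _ _ => rfl⟩, fun _ _ _ => by simp⟩
  add_mem' := by
    rintro a b ⟨⟨F, hF, ha⟩, ha'⟩ ⟨⟨E, hE, hb⟩, hb'⟩
    refine ⟨⟨F ⊔ E, inferInstance, fun g h s t hs ht => ?_⟩, fun g h j => ?_⟩
    · simp only [Pi.add_apply]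
      rw [ha g h s t (IntermediateField.fixingSubgroup_antitone le_sup_left hs)
          (IntermediateField.fixingSubgroup_antitone le_sup_left ht),
        hb g h s t (IntermediateField.fixingSubgroup_antitone le_sup_right hs)
          (IntermediateField.fixingSubgroup_antitone le_sup_right ht)]
    · simp only [Pi.add_apply, map_add]
      have := congrArg₂ (· + ·) (ha' g h j) (hb' g h j)
      simp only [add_zero] at this
      rw [← this]
      abel
  smul_mem' := by
    rintro r a ⟨⟨F, hF, ha⟩, ha'⟩
    refine ⟨⟨F, hF, fun g h s t hs ht => by simp only [Pi.smul_apply, ha g h s t hs ht]⟩,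
      fun g h j => ?_⟩
    simp only [Pi.smul_apply, map_smul, ← smul_sub, ← smul_add, ha' g h j, smul_zero]

/-- The one cochains of a number field level. -/
def C1 : Submodule (ZMod p) (G → A) where
  carrier := {c | LevC ι c}
  zero_mem' := ⟨⊥, inferInstance, fun _ _ _ => rfl⟩
  add_mem' := by
    rintro a b ⟨F, hF, ha⟩ ⟨E, hE, hb⟩
    refine ⟨F ⊔ E, inferInstance, fun g s hs => ?_⟩
    simp only [Pi.add_apply]
    rw [ha g s (IntermediateField.fixingSubgroup_antitone le_sup_left hs),
      hb g s (IntermediateField.fixingSubgroup_antitone le_sup_right hs)]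
  smul_mem' := by
    rintro r a ⟨F, hF, ha⟩
    exact ⟨F, hF, fun g s hs => by simp only [Pi.smul_apply, ha g s hs]⟩

/-- Two coboundaries. -/
def B2 : Submodule (ZMod p) (G → G → A) := (C1 (p := p) (A := A) ι).map (d1 ρ ι)

section Unramified

variable (S : Finset Nat.Primes)

/-- Constant on the cosets of a number field unramified outside `S`. -/
def LevS {α : Type} (c : G → α) : Prop :=
  ∃ F : IntermediateField ℚ LL, F.IsUnramifiedOutside S ∧
    ∀ g s : G, ι s ∈ F.fixingSubgroup → c (g * s) = c g

/-- The same in two variables. -/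
def LevS₂ {α : Type} (c : G → G → α) : Prop :=
  ∃ F : IntermediateField ℚ LL, F.IsUnramifiedOutside S ∧
    ∀ g h s t : G, ι s ∈ F.fixingSubgroup → ι t ∈ F.fixingSubgroup → c (g * s) (h * t) = c g h

/-- One cochains unramified outside `S`. -/
def C1S : Submodule (ZMod p) (G → A) where
  carrier := {c | LevS ι S c}
  zero_mem' := ⟨⊥, IntermediateField.isUnramifiedOutside_bot S, fun _ _ _ => rfl⟩
  add_mem' := by
    rintro a b ⟨F, hF, ha⟩ ⟨E, hE, hb⟩
    refine ⟨F ⊔ E, hF.sup hE, fun g s hs => ?_⟩
    simp only [Pi.add_apply]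
    rw [ha g s (IntermediateField.fixingSubgroup_antitone le_sup_left hs),
      hb g s (IntermediateField.fixingSubgroup_antitone le_sup_right hs)]
  smul_mem' := by
    rintro r a ⟨F, hF, ha⟩
    exact ⟨F, hF, fun g s hs => by simp only [Pi.smul_apply, ha g s hs]⟩

/-- Two cochains unramified outside `S`. -/
def C2S : Submodule (ZMod p) (G → G → A) where
  carrier := {c | LevS₂ ι S c}
  zero_mem' := ⟨⊥, IntermediateField.isUnramifiedOutside_bot S, fun _ _ _ _ _ _ => rfl⟩
  add_mem' := by
    rintro a b ⟨F, hF, ha⟩ ⟨E, hE, hb⟩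
    refine ⟨F ⊔ E, hF.sup hE, fun g h s t hs ht => ?_⟩
    simp only [Pi.add_apply]
    rw [ha g h s t (IntermediateField.fixingSubgroup_antitone le_sup_left hs)
        (IntermediateField.fixingSubgroup_antitone le_sup_left ht),
      hb g h s t (IntermediateField.fixingSubgroup_antitone le_sup_right hs)
        (IntermediateField.fixingSubgroup_antitone le_sup_right ht)]
  smul_mem' := by
    rintro r a ⟨F, hF, ha⟩
    exact ⟨F, hF, fun g h s t hs ht => by simp only [Pi.smul_apply, ha g h s t hs ht]⟩

/-- One cocycles unramified outside `S`. -/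
def Z1S : Submodule (ZMod p) (G → A) := Z1 ρ ι ⊓ C1S ι S

/-- Two cocycles unramified outside `S`. -/
def Z2S : Submodule (ZMod p) (G → G → A) := Z2 ρ ι ⊓ C2S ι S

/-- Coboundaries of cochains unramified outside `S`. -/
def B2S : Submodule (ZMod p) (G → G → A) := (C1S (p := p) (A := A) ι S).map (d1 ρ ι)

end Unramified

/-- Restriction of one cochains along a homomorphism. -/
def res1 (f : G' →* G) : (G → A) →ₗ[ZMod p] G' → A := LinearMap.funLeft (ZMod p) A f

/-- Restriction of two cochains along a homomorphism. -/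
def res2 (f : G' →* G) : (G → G → A) →ₗ[ZMod p] G' → G' → A :=
  LinearMap.pi fun g => LinearMap.pi fun h =>
    (LinearMap.proj (f h) : (G → A) →ₗ[ZMod p] A) ∘ₗ
      (LinearMap.proj (f g) : (G → G → A) →ₗ[ZMod p] G → A)

theorem res1_apply (f : G' →* G) (c : G → A) (g : G') : res1 (p := p) f c g = c (f g) := rfl

theorem res2_apply (f : G' →* G) (c : G → G → A) (g h : G') :
    res2 (p := p) f c g h = c (f g) (f h) := rfl

/-- The classes of degree one. -/
abbrev SH (Z B : Submodule (ZMod p) A) : Type := ↥Z ⧸ B.comap Z.subtype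

/-- An equivariant perfect pairing into the cyclotomic line. -/
structure DualPair {A' : Type} [AddCommGroup A'] [Module (ZMod p) A']
    (ρ : Representation (ZMod p) GG A) (ρ' : Representation (ZMod p) GG A') where
  e : A →ₗ[ZMod p] A' →ₗ[ZMod p] ZMod p
  equivariant : ∀ (g : GG) (a : A) (b : A'), e (ρ g a) (ρ' g b) = om p g * e a b
  left : ∀ a, (∀ b, e a b = 0) → a = 0
  right : ∀ b, (∀ a, e a b = 0) → b = 0

/-- The cup product of two one cochains by a pairing. -/
def cup {A' : Type} [AddCommGroup A'] [Module (ZMod p) A']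
    (e : A →ₗ[ZMod p] A' →ₗ[ZMod p] ZMod p) (ρ' : Representation (ZMod p) GG A')
    (a : G → A) (b : G → A') (g h : G) : ZMod p :=
  e (a g) (ρ' (ι g) (b h))

end FLTAgent.PoitouTate
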