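import Fermat.Agent.PoitouTate.Base

/-!
# The independent inputs of the Poitou-Tate pairing

A splitting field unramified outside `S` and containing the roots of unity, the coinduced
modules, and the statements about trivial coefficients over the field, coinduced coefficients,
local duality, and the existence of classes with a prescribed local part.
-/

set_option autoImplicit false

noncomputable section

open scoped Pointwise

namespace FLTAgent.PoitouTate

open FLTAgent.Lowering.P1 FLTAgent.Lowering.P1.Brauer FLTAgent.Lowering.P1.Hasse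

local notation "LL" => AlgebraicClosure ℚ
local notation "GG" => (AlgebraicClosure ℚ ≃ₐ[ℚ] AlgebraicClosure ℚ)
local notation "VS" => ValuationSubring (AlgebraicClosure ℚ)
local notation "Dec" => ValuationSubring.decompositionSubgroup ℚ

variable {p : ℕ} [Fact p.Prime] {S : Finset Nat.Primes}

/-- A finite Galois extension unramified outside `S` with the roots of unity. -/
structure SField (p : ℕ) [Fact p.Prime] (S : Finset Nat.Primes) where
  K : IntermediateField ℚ LL
  fd : FiniteDimensional ℚ K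
  normal : Normal ℚ K
  unram : K.IsUnramifiedOutside S
  zeta : ∀ g ∈ galOf K, om p g = 1

namespace SField

variable (F : SField p S)

/-- The group of the field. -/
def N : Subgroup GG := galOf F.K

instance instNormal : F.N.Normal :=
  haveI := F.normal
  Brauer.fix_normal F.K

/-- The group of automorphisms of the field, as a quotient. -/
abbrev Γ : Type := GG ⧸ F.N

instance instFinite : Finite F.Γ :=
  haveI := F.fd
  haveI := F.normal
  haveI : F.N.FiniteIndex := Loc.finiteIndex_galOf F.K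
  inferInstance

/-- A representation factoring through the field. -/
def Triv {A : Type} [AddCommGroup A] [Module (ZMod p) A] (ρ : Representation (ZMod p) GG A) :
    Prop :=
  ∀ g ∈ F.N, ρ g = LinearMap.id

/-- The decomposition group inside the group of the field. -/
abbrev Hw (w : VS) : Subgroup GG := F.N ⊓ Dec w

/-- Its inclusion. -/
abbrev incl (w : VS) : ↥(F.Hw w) →* ↥F.N := Subgroup.inclusion inf_le_left

variable (A : Type) [AddCommGroup A] [Module (ZMod p) A]

/-- The coinduced representation. -/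
def coind : Representation (ZMod p) GG (F.Γ → A) where
  toFun g := LinearMap.funLeft (ZMod p) A fun x => x * (g : F.Γ)
  map_one' := LinearMap.ext fun f => funext fun x => by
    show f (x * ((1 : GG) : F.Γ)) = f x
    rw [QuotientGroup.mk_one, mul_one]
  map_mul' g h := LinearMap.ext fun f => funext fun x => by
    show f (x * ((g * h : GG) : F.Γ)) = f (x * (g : F.Γ) * (h : F.Γ))
    rw [QuotientGroup.mk_mul, mul_assoc]

theorem coind_apply (g : GG) (f : F.Γ → A) (x : F.Γ) :
    F.coind A g f x = f (x * (g : F.Γ)) := rfl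

theorem om_out (g : GG) (x : F.Γ) :
    om p (x * (g : F.Γ)).out = om p x.out * om p g := by
  have h : ((x * (g : F.Γ)).out : F.Γ) = ((x.out * g : GG) : F.Γ) := by
    rw [QuotientGroup.out_eq', QuotientGroup.mk_mul, QuotientGroup.out_eq']
  have h1 := F.zeta _ (QuotientGroup.eq.1 h)
  have hmul : ∀ a b : GG, om p (a * b) = om p a * om p b := fun a b => by
    simp [om, map_mul]
  calc om p (x * (g : F.Γ)).out
      = om p (x * (g : F.Γ)).out * om p (((x * (g : F.Γ)).out)⁻¹ * (x.out * g)) := by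
        rw [h1, mul_one]
    _ = om p (x.out * g) := by rw [← hmul, mul_inv_cancel_left]
    _ = _ := hmul _ _

variable {A} {A' : Type} [AddCommGroup A'] [Module (ZMod p) A'] [Fintype F.Γ]

/-- The pairing of the coinduced modules. -/
def coindE (e : A →ₗ[ZMod p] A' →ₗ[ZMod p] ZMod p) :
    (F.Γ → A) →ₗ[ZMod p] (F.Γ → A') →ₗ[ZMod p] ZMod p :=
  ∑ x : F.Γ, (om p x.out)⁻¹ • e.compl₁₂ (LinearMap.proj x) (LinearMap.proj x)

theorem coindE_apply (e : A →ₗ[ZMod p] A' →ₗ[ZMod p] ZMod p) (f : F.Γ → A) (f' : F.Γ → A') :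
    F.coindE e f f' = ∑ x : F.Γ, (om p x.out)⁻¹ * e (f x) (f' x) := by
  simp [coindE]

/-- The coinduced pairing. -/
def coindPair {ρ : Representation (ZMod p) GG A} {ρ' : Representation (ZMod p) GG A'}
    (P : DualPair ρ ρ') : DualPair (F.coind A) (F.coind A') where
  e := F.coindE P.e
  equivariant g f f' := by
    rw [coindE_apply, coindE_apply, Finset.mul_sum]
    refine Fintype.sum_equiv (Equiv.mulRight (g : F.Γ)) _ _ fun x => ?_
    rw [Equiv.coe_mulRight, coind_apply, coind_apply, F.om_out g x]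
    have hg : om p g ≠ 0 := Units.ne_zero _
    field_simp
  left f hf := by
    classical
    funext x
    refine P.left _ fun b => ?_
    have h := hf (Pi.single x b)
    rw [coindE_apply, Finset.sum_eq_single x (fun y _ hy => by simp [Pi.single_eq_of_ne hy])
      (fun hx => absurd (Finset.mem_univ x) hx), Pi.single_eq_same] at h
    exact (mul_eq_zero.1 h).resolve_left (inv_ne_zero (Units.ne_zero _))
  right f hf := by
    classical
    funext x
    refine P.right _ fun a => ?_
    have h := hf (Pi.single x a)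
    rw [coindE_apply, Finset.sum_eq_single x (fun y _ hy => by simp [Pi.single_eq_of_ne hy])
      (fun hx => absurd (Finset.mem_univ x) hx), Pi.single_eq_same] at h
    exact (mul_eq_zero.1 h).resolve_left (inv_ne_zero (Units.ne_zero _))

end SField

variable {A : Type} [AddCommGroup A] [Module (ZMod p) A] (ρ : Representation (ZMod p) GG A)

/-- The cocycles of degree one which are locally coboundaries at `S`. -/
def Sha1 (S : Finset Nat.Primes) (V : Nat.Primes → VS) : Submodule (ZMod p) (GG → A) :=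
  Z1S ρ (MonoidHom.id GG) S ⊓
    ⨅ q ∈ S, (B1 ρ (Dec (V q)).subtype).comap (res1 (p := p) (Dec (V q)).subtype)

/-- The cocycles of degree two which are locally coboundaries at `S`. -/
def Sha2 (S : Finset Nat.Primes) (V : Nat.Primes → VS) : Submodule (ZMod p) (GG → GG → A) :=
  Z2S ρ (MonoidHom.id GG) S ⊓
    ⨅ q ∈ S, (B2 ρ (Dec (V q)).subtype).comap (res2 (p := p) (Dec (V q)).subtype)

/-- The cocycles over the field which vanish at the places `R`. -/
def Sha1N (F : SField p S) (R : Finset VS) : Submodule (ZMod p) (↥F.N → ZMod p) :=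
  Z1S (omRep p) F.N.subtype S ⊓
    ⨅ w ∈ R, (B1 (omRep p) (F.Hw w).subtype).comap (res1 (p := p) (F.incl w))

/-- The two cocycles over the field which are coboundaries at the places `R`. -/
def Sha2N (F : SField p S) (R : Finset VS) : Submodule (ZMod p) (↥F.N → ↥F.N → ZMod p) :=
  Z2S (omRep p) F.N.subtype S ⊓
    ⨅ w ∈ R, (B2 (omRep p) (F.Hw w).subtype).comap (res2 (p := p) (F.incl w))

/-- A system of the places of the field over `S`. -/
structure SPlaces (F : SField p S) (R : Finset VS) : Prop where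
  places : IsPlaces F.K R
  iff : ∀ (l : ℕ) (V : VS), l.Prime → V.LiesOverPrime l →
    (InOrbit F.N R V ↔ ∃ q ∈ S, (q : ℕ) = l)

/-- Arithmetic of trivial coefficients over the field. -/
structure FieldFacts (F : SField p S) (R : Finset VS) : Prop where
  finiteGlobal : FiniteDimensional (ZMod p) ↥(Z1S (omRep p) F.N.subtype S)
  finiteLocal : ∀ w ∈ R, FiniteDimensional (ZMod p) ↥(Z1 (omRep p) (F.Hw w).subtype)
  localNondeg : ∀ w ∈ R, ∀ a ∈ Z1 (omRep p) (F.Hw w).subtype,
    (∀ b ∈ Z1 (omRep p) (F.Hw w).subtype,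
      invL p w (F.Hw w) (cup (F.Hw w).subtype (LinearMap.mul (ZMod p) (ZMod p)) (omRep p) a b) = 0) →
    a = 0
  middle : ∀ r : (w : ↥R) → ↥(F.Hw w) → ZMod p, (∀ w : ↥R, r w ∈ Z1 (omRep p) (F.Hw (w : VS)).subtype) →
    (∀ a ∈ Z1S (omRep p) F.N.subtype S, ∑ w : ↥R, invL p w (F.Hw w)
      (cup (F.Hw w).subtype (LinearMap.mul (ZMod p) (ZMod p)) (omRep p)
        (res1 (p := p) (F.incl w) a) (r w)) = 0) →
    ∃ b ∈ Z1S (omRep p) F.N.subtype S, ∀ w : ↥R, res1 (p := p) (F.incl w) b = r w
  sha_finite : FiniteDimensional (ZMod p) (SH (Sha2N F R) (B2S (omRep p) F.N.subtype S))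
  sha_le : Module.finrank (ZMod p) (SH (Sha2N F R) (B2S (omRep p) F.N.subtype S)) ≤
    Module.finrank (ZMod p) ↥(Sha1N F R)
  exists_class : ∀ w₀ ∈ R, ∀ w₁ ∈ R, w₀.LiesOverPrime p → w₁.LiesOverPrime p → w₀ ≠ w₁ →
    ∃ f ∈ Z2S (omRep p) F.N.subtype S,
      invL p w₀ (F.Hw w₀) (res2 (p := p) (F.incl w₀) f) = 1 ∧
      invL p w₁ (F.Hw w₁) (res2 (p := p) (F.incl w₁) f) = -1 ∧
      ∀ w ∈ R, w ≠ w₀ → w ≠ w₁ → invL p w (F.Hw w) (res2 (p := p) (F.incl w) f) = 0

/-- Target: trivial coefficients over a field. -/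
def TargetField : Prop :=
  ∀ (p : ℕ) [Fact p.Prime], p ≠ 2 → ∀ (S : Finset Nat.Primes), ExtCitation.pPrime p ∈ S →
    ∀ (F : SField p S) (R : Finset VS), SPlaces F R → FieldFacts F R

/-- The facts about a pair of coinduced modules. -/
structure CoindFacts {B B' : Type} [AddCommGroup B] [Module (ZMod p) B] [AddCommGroup B']
    [Module (ZMod p) B'] {β : Representation (ZMod p) GG B} {β' : Representation (ZMod p) GG B'}
    (P : DualPair β β') (S : Finset Nat.Primes) (V : Nat.Primes → VS) : Prop where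
  finiteGlobal : FiniteDimensional (ZMod p)
    (SH (Z1S β' (MonoidHom.id GG) S) (B1 β' (MonoidHom.id GG)))
  finiteLocal : ∀ q ∈ S,
    FiniteDimensional (ZMod p) (SH (Z1 β (Dec (V q)).subtype) (B1 β (Dec (V q)).subtype)) ∧
    FiniteDimensional (ZMod p) (SH (Z1 β' (Dec (V q)).subtype) (B1 β' (Dec (V q)).subtype))
  leftNondeg : ∀ q ∈ S, ∀ a ∈ Z1 β (Dec (V q)).subtype,
    (∀ b ∈ Z1 β' (Dec (V q)).subtype,
      invL p (V q) (Dec (V q)) (cup (Dec (V q)).subtype P.e β' a b) = 0) →
    a ∈ B1 β (Dec (V q)).subtype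
  rightNondeg : ∀ q ∈ S, ∀ b ∈ Z1 β' (Dec (V q)).subtype,
    (∀ a ∈ Z1 β (Dec (V q)).subtype,
      invL p (V q) (Dec (V q)) (cup (Dec (V q)).subtype P.e β' a b) = 0) →
    b ∈ B1 β' (Dec (V q)).subtype
  middle : ∀ r : (q : ↥S) → ↥(Dec (V q)) → B', (∀ q : ↥S, r q ∈ Z1 β' (Dec (V (q : Nat.Primes))).subtype) →
    (∀ a ∈ Z1S β (MonoidHom.id GG) S, ∑ q : ↥S, invL p (V q) (Dec (V q))
      (cup (Dec (V q)).subtype P.e β' (res1 (p := p) (Dec (V q)).subtype a) (r q)) = 0) →
    ∃ b ∈ Z1S β' (MonoidHom.id GG) S,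
      ∀ q : ↥S, res1 (p := p) (Dec (V q)).subtype b - r q ∈ B1 β' (Dec (V q)).subtype
  sha_finite : FiniteDimensional (ZMod p) (SH (Sha2 β S V) (B2S β (MonoidHom.id GG) S))
  sha_le : Module.finrank (ZMod p) (SH (Sha2 β S V) (B2S β (MonoidHom.id GG) S)) ≤
    Module.finrank (ZMod p) (SH (Sha1 β' S V) (B1 β' (MonoidHom.id GG)))

/-- Target: coinduced modules, from the field. -/
def TargetCoind : Prop :=
  TargetField → ∀ (p : ℕ) [Fact p.Prime], p ≠ 2 →
    ∀ (S : Finset Nat.Primes), ExtCitation.pPrime p ∈ S →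
    ∀ (V : Nat.Primes → VS), (∀ q, (V q).LiesOverPrime (q : ℕ)) →
    ∀ (F : SField p S) [Fintype F.Γ] (A A' : Type) [AddCommGroup A] [Module (ZMod p) A]
      [AddCommGroup A'] [Module (ZMod p) A'] [FiniteDimensional (ZMod p) A]
      [FiniteDimensional (ZMod p) A'] (ρ : Representation (ZMod p) GG A)
      (ρ' : Representation (ZMod p) GG A') (P : DualPair ρ ρ'), F.Triv ρ → F.Triv ρ' →
      CoindFacts (F.coindPair P) S V

/-- Target: local duality in degree one. -/
def TargetLocalDual : Prop :=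
  TargetField → ∀ (p : ℕ) [Fact p.Prime], p ≠ 2 →
    ∀ (S : Finset Nat.Primes), ExtCitation.pPrime p ∈ S → ∀ (F : SField p S),
    ∀ (A A' : Type) [AddCommGroup A] [Module (ZMod p) A] [AddCommGroup A'] [Module (ZMod p) A']
      [FiniteDimensional (ZMod p) A] [FiniteDimensional (ZMod p) A']
      (ρ : Representation (ZMod p) GG A) (ρ' : Representation (ZMod p) GG A') (P : DualPair ρ ρ'),
      F.Triv ρ → F.Triv ρ' →
      ∀ q ∈ S, ∀ W : VS, W.LiesOverPrime (q : ℕ) →
      ∀ b ∈ Z1 ρ' (Dec W).subtype,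
        (∀ a ∈ Z1 ρ (Dec W).subtype,
          invL p W (Dec W) (cup (Dec W).subtype P.e ρ' a b) = 0) →
        b ∈ B1 ρ' (Dec W).subtype

/-- Target: a global class which is, at one place over `p`, a given vector of the line. -/
def TargetLift : Prop :=
  TargetField → ∀ (p : ℕ) [Fact p.Prime], p ≠ 2 →
    ∀ (S : Finset Nat.Primes), ExtCitation.pPrime p ∈ S →
    ∀ (V : Nat.Primes → VS), (∀ q, (V q).LiesOverPrime (q : ℕ)) → ∀ (F : SField p S),
    Dec (V (ExtCitation.pPrime p)) ⊔ F.N ≠ ⊤ →
    ∀ (A : Type) [AddCommGroup A] [Module (ZMod p) A] [FiniteDimensional (ZMod p) A]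
      (ρ : Representation (ZMod p) GG A), F.Triv ρ →
    ∀ v : A, (∀ g, ρ g v = om p g • v) →
      (∀ φ : A →ₗ[ZMod p] ZMod p, (∀ g a, φ (ρ g a) = om p g * φ a) → φ v = 0) →
      ∃ z ∈ Z2S ρ (MonoidHom.id GG) S,
        ∃ t ∈ Z2 (omRep p) (Dec (V (ExtCitation.pPrime p))).subtype,
          invL p (V (ExtCitation.pPrime p)) (Dec (V (ExtCitation.pPrime p))) t = 1 ∧
          (res2 (p := p) (Dec (V (ExtCitation.pPrime p))).subtype z - fun g h => t g h • v) ∈
            B2 ρ (Dec (V (ExtCitation.pPrime p))).subtype ∧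
          ∀ q ∈ S, q ≠ ExtCitation.pPrime p →
            res2 (p := p) (Dec (V q)).subtype z ∈ B2 ρ (Dec (V q)).subtype

end FLTAgent.PoitouTate
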