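import Fermat.Agent.PoitouTate.Detect
import Fermat.Agent.PoitouTate.Targets
import Fermat.Agent.Lowering.P1.Brauer.Hasse.Places

/-!
# Classes with given invariant and systems of places
-/

set_option autoImplicit false
set_option linter.style.haveILetI false
set_option linter.unusedSectionVars false

noncomputable section

open scoped Pointwise

namespace FLTAgent.PoitouTate

open FLTAgent.Lowering.P1 FLTAgent.Lowering.P1.Brauer FLTAgent.Lowering.P1.Hasse
open FLTAgent.Lowering.P1.Loc (SameOrbit)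

local notation "LL" => AlgebraicClosure ℚ
local notation "GG" => (AlgebraicClosure ℚ ≃ₐ[ℚ] AlgebraicClosure ℚ)
local notation "VS" => ValuationSubring (AlgebraicClosure ℚ)
local notation "Dec" => ValuationSubring.decompositionSubgroup ℚ

variable {p : ℕ} [Fact p.Prime]

/-- A multiplicative class killed by `p` comes from an additive cocycle. -/
theorem exists_additive (hp2 : p ≠ 2) {l : ℕ} {V : VS} {H : Subgroup GG} (hl : l.Prime)
    (hV : V.LiesOverPrime l) (hH : LocalSub V H) {c : GG → GG → LL} (hc : Coc H c)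
    (ht : Cob H fun σ τ => c σ τ ^ p) :
    ∃ z ∈ Z2 (omRep p) H.subtype, invL p V H z = invH (Layer.layer hp2) V H c := by
  classical
  have hp := (Fact.out : p.Prime)
  have hζ := zeta_spec p
  obtain ⟨f, hflev, hfne, hfd⟩ := ht
  choose r hr using fun x : LL => IsAlgClosed.exists_pow_nat_eq x hp.pos
  have hr0 : ∀ x, x ≠ 0 → r x ≠ 0 := fun x hx h => hx (by rw [← hr x, h, zero_pow hp.ne_zero])
  let g : GG → LL := fun σ => r (f σ)
  have hg : LevOn H g := hflev.map r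
  have hgne : ∀ σ ∈ H, g σ ≠ 0 := fun σ hσ => hr0 _ (hfne σ hσ)
  let c' : GG → GG → LL := fun σ τ => c σ τ / dlt g σ τ
  have hc' : Coc H c' := hc.div (coc_dlt hg hgne)
  have hpow : ∀ σ ∈ H, ∀ τ ∈ H, c' σ τ ^ p = 1 := fun σ hσ τ hτ => by
    have h1 : dlt g σ τ ^ p = dlt f σ τ := by
      simp only [dlt, g, div_pow, mul_pow, ← map_pow, hr]
    have h2 := hfd σ hσ τ hτ
    simp only at h2
    simp only [c', div_pow, h1, h2]
    exact div_self (dlt_ne (hfne σ hσ) (hfne τ hτ) (hfne _ (mul_mem hσ hτ)))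
  choose k hk hkz using fun σ τ : ↥H => hζ.eq_pow_of_pow_eq_one (hpow σ σ.2 τ τ.2)
  refine ⟨fun σ τ => (k σ τ : ZMod p), ?_, ?_⟩
  · obtain ⟨E, hE, hlev⟩ := hc'.lev
    refine ⟨⟨E, hE, fun σ τ s t hs ht => ?_⟩, fun σ τ ρ => ?_⟩
    · have h1 : zeta p ^ k (σ * s) (τ * t) = zeta p ^ k σ τ := by
        rw [hkz, hkz]
        exact hlev σ σ.2 τ τ.2 s s.2 hs t t.2 ht
      dsimp only
      rw [hζ.pow_inj (hk _ _) (hk _ _) h1]
    · have hv : ∀ a b : ↥H, zeta p ^ ((k a b : ZMod p)).val = c' a b := fun a b => by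
        rw [ZMod.val_natCast_of_lt (hk a b), hkz]
      have key : zeta p ^ (omRep p (σ : GG) (k τ ρ : ZMod p) + (k σ (τ * ρ) : ZMod p)).val =
          zeta p ^ ((k (σ * τ) ρ : ZMod p) + (k σ τ : ZMod p)).val := by
        rw [zeta_pow_val_add hζ, zeta_pow_val_add hζ, omRep_apply, ← apply_zeta_val, hv, hv, hv, hv]
        exact hc'.assoc σ σ.2 τ τ.2 ρ ρ.2
      have := ZMod.val_injective p (hζ.pow_inj (ZMod.val_lt _) (ZMod.val_lt _) key)
      simp only [Subgroup.coe_subtype] at this ⊢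
      linear_combination this
  · rw [invL_eq hp2]
    refine invH_congr _ hl hV targetLocal hp2 hH hc ⟨f, hflev, hfne, hfd⟩ ?_
    have hs : Sim H c c' := ⟨g, hg, hgne, fun σ hσ τ hτ => by
      simp only [c']
      rw [div_mul_cancel₀ _ (dlt_ne (hgne σ hσ) (hgne τ hτ) (hgne _ (mul_mem hσ hτ)))]⟩
    refine hs.trans (Sim.of_eq fun σ hσ τ hτ => ?_)
    rw [expC_of_mem _ hσ hτ, ZMod.val_natCast_of_lt (hk _ _)]
    exact (hkz ⟨σ, hσ⟩ ⟨τ, hτ⟩).symm

theorem exists_one {H : Subgroup GG} {V : VS} (hp2 : p ≠ 2) {l : ℕ} (hl : l.Prime)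
    (hV : V.LiesOverPrime l) (hH : LocalSub V H) {c : GG → GG → LL} (hc : Coc H c)
    (ht : Cob H fun σ τ => c σ τ ^ p) (hne : invH (Layer.layer hp2) V H c ≠ 0) :
    ∃ t ∈ Z2 (omRep p) H.subtype, invL p V H t = 1 := by
  obtain ⟨z, hz, he⟩ := exists_additive hp2 hl hV hH hc ht
  refine ⟨(invL p V H z)⁻¹ • z, Submodule.smul_mem _ _ hz, ?_⟩
  rw [invL_smul hp2 hl hV hH _ hz, inv_mul_cancel₀ (he ▸ hne)]

/-- A decomposition group has a class of invariant one. -/
theorem exists_invL_eq_one_dec (hp2 : p ≠ 2) {l : ℕ} {V : VS} (hl : l.Prime)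
    (hV : V.LiesOverPrime l) :
    ∃ t ∈ Z2 (omRep p) (Dec V).subtype, invL p V (Dec V) t = 1 := by
  obtain ⟨c, hc, ht, hne⟩ := exists_invH_ne_zero (Layer.layer hp2) hl hV targetLocal hp2
  exact exists_one hp2 hl hV localSub_self hc ht hne

/-- An open subgroup fixing the roots of unity has a class of invariant one. -/
theorem exists_invL_eq_one (hp2 : p ≠ 2) {l : ℕ} {V : VS} {H : Subgroup GG} (hl : l.Prime)
    (hV : V.LiesOverPrime l) (hH : LocalSub V H) (hom : ∀ g ∈ H, om p g = 1) :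
    ∃ t ∈ Z2 (omRep p) H.subtype, invL p V H t = 1 := by
  obtain ⟨n₁, -, hnz⟩ := exists_nonzero (Layer.layer hp2) hl hV hH
  obtain ⟨s, -, χ, -, -⟩ := exists_scaled (fun σ _ τ _ => (Layer.layer hp2).mul n₁ σ τ)
    (Brauer.psi_levOn (Layer.layer hp2) n₁) (hnz n₁ le_rfl)
  obtain ⟨b, hb0, hb, hbn, -⟩ := normIndex_of_local targetLocal hl hV (zeta_spec p)
    (fun σ hσ => (om_eq_one_iff σ).1 (hom σ hσ)) hH χ.red
  have hc := χ.red.coc_sym hb0 hb
  have ht := cob_sym_pow_p χ.red hb0 hb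
  exact exists_one hp2 hl hV hH hc ht fun h => hbn (χ.red.norm_of_cob_sym
    (detects (Layer.layer hp2) hl hV hp2 (zeta_spec p) hH _ hc ht h))

variable {S : Finset Nat.Primes}

theorem localSub_Hw (F : SField p S) (w : VS) : LocalSub w (F.Hw w) :=
  haveI := F.fd
  localSub_galOf F.K

/-- The places over `S`, with prescribed representatives of some of them. -/
theorem exists_splaces (F : SField p S) (W₀ : Finset VS)
    (h₀ : ∀ w ∈ W₀, ∃ q ∈ S, w.LiesOverPrime (q : ℕ))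
    (hinj : ∀ v ∈ W₀, ∀ w ∈ W₀, SameOrbit F.N v w → v = w) :
    ∃ R : Finset VS, SPlaces F R ∧ W₀ ⊆ R := by
  classical
  haveI := F.fd
  obtain ⟨R, hR, hRS, hiff⟩ := Hasse.exists_places F.K (S.image fun q : Nat.Primes => (q : ℕ))
    fun l hl => by
      obtain ⟨q, -, rfl⟩ := Finset.mem_image.1 hl
      exact q.2
  have himg : ∀ l : ℕ, l ∈ S.image (fun q : Nat.Primes => (q : ℕ)) ↔ ∃ q ∈ S, (q : ℕ) = l :=
    fun l => Finset.mem_image
  set R' := W₀ ∪ R.filter fun v => ∀ w ∈ W₀, ¬ SameOrbit F.N w v with hR'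
  refine ⟨R', ⟨⟨fun v hv => ?_, fun v hv w hw h => ?_⟩, fun l V hl hV => ?_⟩,
    Finset.subset_union_left⟩
  · rcases Finset.mem_union.1 hv with h | h
    · obtain ⟨q, -, hq⟩ := h₀ v h
      exact ⟨q, q.2, hq⟩
    · exact hR.lies v (Finset.mem_filter.1 h).1
  · rcases Finset.mem_union.1 hv with hv | hv <;> rcases Finset.mem_union.1 hw with hw | hw
    · exact hinj v hv w hw h
    · exact absurd h ((Finset.mem_filter.1 hw).2 v hv)
    · exact absurd (sameOrbit_symm h) ((Finset.mem_filter.1 hv).2 w hw)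
    · exact hR.inj v (Finset.mem_filter.1 hv).1 w (Finset.mem_filter.1 hw).1 h
  · rw [← himg, ← hiff l V hl hV]
    constructor
    · rintro ⟨w, hw, hwV⟩
      rcases Finset.mem_union.1 hw with hw | hw
      · obtain ⟨q, hq, hqw⟩ := h₀ w hw
        have hin := (hiff q w q.2 hqw).2 ((himg _).2 ⟨q, hq, rfl⟩)
        exact (Hasse.inOrbit_congr hwV).1 hin
      · exact ⟨w, (Finset.mem_filter.1 hw).1, hwV⟩
    · rintro ⟨w, hw, hwV⟩
      by_cases hW : ∃ u ∈ W₀, SameOrbit F.N u w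
      · obtain ⟨u, hu, huw⟩ := hW
        exact ⟨u, Finset.mem_union_left _ hu, sameOrbit_trans huw hwV⟩
      · push Not at hW
        exact ⟨w, Finset.mem_union_right _ (Finset.mem_filter.2 ⟨hw, hW⟩), hwV⟩

end FLTAgent.PoitouTate
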