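import Fermat.Agent.PoitouTate.Sha.Count
import Fermat.Agent.PoitouTate.Sha.Translate
import Fermat.Agent.PoitouTate.Field.Target
import Fermat.Agent.PoitouTate.Lift.Target
import Fermat.Agent.PoitouTate.LocalDual.Target

/-!
# The pairing of the two Tate-Shafarevich groups
-/

set_option autoImplicit false
set_option linter.style.haveILetI false
set_option linter.unusedSectionVars false
set_option maxHeartbeats 1000000

noncomputable section

open CategoryTheory
open scoped Pointwise

namespace FLTAgent.PoitouTate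

open FLTAgent.Lowering.P1 FLTAgent.Lowering.P1.Brauer groupCohomology ExtCitation

local notation "LL" => AlgebraicClosure ℚ
local notation "GG" => (AlgebraicClosure ℚ ≃ₐ[ℚ] AlgebraicClosure ℚ)
local notation "VS" => ValuationSubring (AlgebraicClosure ℚ)
local notation "Dec" => ValuationSubring.decompositionSubgroup ℚ
local notation "idG" => MonoidHom.id (AlgebraicClosure ℚ ≃ₐ[ℚ] AlgebraicClosure ℚ)

variable {p : ℕ} [Fact p.Prime]

theorem exists_sfield (S : Finset Nat.Primes) (hpS : pPrime p ∈ S)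
    {A : Type} [AddCommGroup A] [Module (ZMod p) A] [FiniteDimensional (ZMod p) A]
    (ρ : Representation (ZMod p) GG A)
    (hsm : ∀ m : A, ∃ F : IntermediateField ℚ LL, FiniteDimensional ℚ F ∧
      ∀ s ∈ F.fixingSubgroup, ρ s m = m)
    (hur : ∀ q : Nat.Primes, q ∉ S → ∀ W : VS, W.LiesOverPrime (q : ℕ) →
      ∀ g ∈ W.inertiaSubgroupIn ℚ, ρ g = 1) :
    ∃ F : SField p S, F.Triv ρ := by
  classical
  let b := Module.finBasis (ZMod p) A
  choose E hE hfix using fun i => hsm (b i)
  have hsup : ∀ i, E i ≤ ⨆ j, E j := le_iSup E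
  haveI : ∀ i, FiniteDimensional ℚ (E i) := hE
  let K : Subgroup GG :=
    (MonoidHom.toHomUnits ρ).ker
  have hK : ∀ g, g ∈ K ↔ ρ g = 1 := fun g => by
    simp [K, MonoidHom.mem_ker]
  have hle : (⨆ j, E j).fixingSubgroup ≤ K := fun g hg => (hK g).2 (b.ext fun i => by
    rw [Module.End.one_apply]
    exact hfix i g (IntermediateField.fixingSubgroup_antitone (hsup i) hg))
  obtain ⟨L, hL, hLeq⟩ := exists_field_of_sup K (⨆ j, E j)
  rw [sup_eq_left.2 hle] at hLeq
  have hLur : (L ⊔ zetaField p).IsUnramifiedOutside S := by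
    refine ⟨inferInstance, fun q hq W hW g hg => ?_⟩
    rw [IntermediateField.fixingSubgroup_sup]
    refine ⟨show g ∈ galOf L from hLeq ▸ (hK g).2 (hur q hq W hW g hg), ?_⟩
    have hp := (Fact.out : p.Prime)
    have h1 : g (zeta p) = zeta p := Hasse.inertia_fix (p := p) q.2
      (fun e => hq ((Subtype.ext e : q = pPrime p).symm ▸ hpS)) hW
      (valuation_eq_one_of_pow hp.ne_zero (zeta_spec p).pow_eq_one) hg
      (by rw [(zeta_spec p).pow_eq_one, map_one])
    have hle2 : zetaField p ≤ IntermediateField.fixedField (Subgroup.zpowers g) := by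
      refine IntermediateField.adjoin_le_iff.2 (Set.singleton_subset_iff.2 ?_)
      refine (IntermediateField.mem_fixedField_iff _ _).2 fun τ hτ => ?_
      obtain ⟨k, rfl⟩ := Subgroup.mem_zpowers_iff.1 hτ
      exact MulAction.mem_stabilizer_iff.1
        (zpow_mem (show g ∈ MulAction.stabilizer GG (zeta p) from h1) k)
    exact (IntermediateField.le_iff_le (Subgroup.zpowers g) (zetaField p)).1 hle2
      (Subgroup.mem_zpowers g)
  obtain ⟨N, hN, hNn, hNle⟩ := exists_normal_field_unramified hLur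
  refine ⟨⟨N, hN.1, hNn, hN, fun g hg => ?_⟩, fun g hg => ?_⟩
  · exact om_eq_one_of_fix ((IntermediateField.mem_fixingSubgroup_iff _ _).1 hg _
      ((le_sup_right.trans hNle) (IntermediateField.mem_adjoin_simple_self ℚ _)))
  · have h1 : g ∈ galOf L := IntermediateField.fixingSubgroup_antitone (le_sup_left.trans hNle) hg
    rw [hLeq] at h1
    exact (hK g).1 h1

/-- The pairing of the statement, from coinduced modules over fields. -/
theorem exists_pairing (hcoind : TargetCoind) (hp2 : p ≠ 2) (S : Finset Nat.Primes)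
    (hpS : pPrime p ∈ S) (M : Rep (ZMod p) GG) [FiniteDimensional (ZMod p) M]
    (hsm : ∀ m : M, ∃ F : IntermediateField ℚ LL, FiniteDimensional ℚ F ∧
      ∀ s ∈ F.fixingSubgroup, M.ρ s m = m)
    (hMur : ∀ q : Nat.Primes, q ∉ S → ∀ W : VS,
      W.LiesOverPrime (q : ℕ) → ∀ g ∈ W.inertiaSubgroupIn ℚ, M.ρ g = 1) :
    ∃ B : sha₁ S (M.dualTwist (cycloChar p)) →ₗ[ZMod p] sha₂ S M →ₗ[ZMod p] ZMod p,
      (∀ y, (∀ x, B y x = 0) → y = 0) ∧ (∀ x, (∀ y, B y x = 0) → x = 0) := by
  obtain ⟨F, hρ⟩ := exists_sfield S hpS M.ρ hsm hMur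
  haveI : FiniteDimensional (ZMod p) (M.dualTwist (cycloChar p)) :=
    inferInstanceAs (FiniteDimensional (ZMod p) (Module.Dual (ZMod p) M))
  have hρ' : F.Triv (M.dualTwist (cycloChar p)).ρ := fun g hg => LinearMap.ext fun f => by
    refine LinearMap.ext fun m => ?_
    show om p g • f (M.ρ g⁻¹ m) = f m
    rw [F.zeta g hg, one_smul, hρ _ (inv_mem hg), LinearMap.id_apply]
  let P : DualPair M.ρ (M.dualTwist (cycloChar p)).ρ :=
    { e := Module.Dual.eval (ZMod p) M
      equivariant := fun g a f => by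
        show om p g • f (M.ρ g⁻¹ (M.ρ g a)) = om p g * f a
        rw [← rho_mul, inv_mul_cancel, rho_one, smul_eq_mul]
      left := fun a ha => (Module.forall_dual_apply_eq_zero_iff (ZMod p) a).1 ha
      right := fun f hf => LinearMap.ext hf }
  obtain ⟨f1, f2, heq⟩ := sha_eq targetField targetLift targetLocalDual hcoind hp2 hpS
    stdPlace_lies hρ hρ' P
  haveI := f1
  haveI := f2
  have e1 : SH (Sha1 (M.dualTwist (cycloChar p)).ρ S stdPlace)
      (B1 (M.dualTwist (cycloChar p)).ρ idG) ≃ₗ[ZMod p] sha₁ S (M.dualTwist (cycloChar p)) :=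
    (Submodule.quotEquivOfEq _ _ (ker_sha1ToH1 _).symm).trans
      ((LinearMap.quotKerEquivRange _).trans
        (LinearEquiv.ofEq _ _ (sha₁_eq_range _ hp2 hρ'.smooth).symm))
  have e2 : SH (Sha2 M.ρ S stdPlace) (B2S M.ρ idG S) ≃ₗ[ZMod p] sha₂ S M :=
    (Submodule.quotEquivOfEq _ _ (ker_sha2ToH2 M).symm).trans
      ((LinearMap.quotKerEquivRange _).trans
        (LinearEquiv.ofEq _ _ (sha₂_eq_range M hp2 hρ.smooth).symm))
  haveI : FiniteDimensional (ZMod p) (sha₁ S (M.dualTwist (cycloChar p))) :=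
    Module.Finite.equiv e1
  haveI : FiniteDimensional (ZMod p) (sha₂ S M) := Module.Finite.equiv e2
  let e : sha₁ S (M.dualTwist (cycloChar p)) ≃ₗ[ZMod p] Module.Dual (ZMod p) (sha₂ S M) :=
    LinearEquiv.ofFinrankEq _ _ (by rw [Subspace.dual_finrank_eq, ← e1.finrank_eq, ← e2.finrank_eq, heq])
  refine ⟨e.toLinearMap, fun y hy => e.map_eq_zero_iff.1 (LinearMap.ext hy), fun x hx => ?_⟩
  refine (Module.forall_dual_apply_eq_zero_iff (ZMod p) x).1 fun φ => ?_
  obtain ⟨y, rfl⟩ := e.surjective φ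
  exact hx y

end FLTAgent.PoitouTate
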